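/-
S44 project, cell [G1] (abstract half of [G] ETALE; helper16).  Mathlib only.  Prefix `s44g_`.

**The depth induction.**  In the setting `s44g_Branches` of `Etale/Glue.lean`: a unit `u` of the
local ring `S` which is split to depth `p m` on every branch is
`u = C d^p (1 + π ^ (p m) H)` with ONE constant `C ∈ Oˣ`, `d ∈ Sˣ`, `H ∈ S` (`s44g_ind`); if it is
split to depth `p m + 1`, then on every branch `H ≡ γ + t^p + w t mod π` (`s44g_top`).
-/
import Mathlib
import Fermat.Agent.S44.Etale.Glue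

set_option autoImplicit false

namespace Fermat.Agent.S44

open IsLocalRing

universe u v w'

/-- `u` is **split to depth `n`** on the branch `φ : S → R`: `u = c g^p (1 + π^n r)` in `R` with a
unit constant `c`. -/
def s44g_Split {S : Type*} [CommRing S] {R : Type*} [CommRing R] (O : Subring S) (π : S)
    (p n : ℕ) (φ : S →+* R) (u : S) : Prop :=
  ∃ c ∈ O, ∃ c' ∈ O, c * c' = 1 ∧ ∃ g r : R, φ u = φ c * g ^ p * (1 + φ π ^ n * r)

theorem s44g_Split.mono {S : Type*} [CommRing S] {R : Type*} [CommRing R] {O : Subring S}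
    {π : S} {p n n' : ℕ} {φ : S →+* R} {u : S} (h : s44g_Split O π p n φ u) (hn : n' ≤ n) :
    s44g_Split O π p n' φ u := by
  obtain ⟨c, hc, c', hc', hcc, g, r, hu⟩ := h
  obtain ⟨k, rfl⟩ := Nat.exists_eq_add_of_le hn
  exact ⟨c, hc, c', hc', hcc, g, φ π ^ k * r, by rw [hu, pow_add]; ring⟩

/-- the induction statement at depth `j`. -/
def s44g_Depth {S : Type*} [CommRing S] (O : Subring S) (π : S) (p j : ℕ) (u : S) : Prop :=
  ∃ C ∈ O, ∃ C' ∈ O, C * C' = 1 ∧ ∃ d h : S, IsUnit d ∧ u = C * d ^ p * (1 + π ^ j * h)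

section

variable {S : Type u} [CommRing S] [IsLocalRing S] {O : Subring S} {π w : S} {p m : ℕ}
  {ι : Type v} {R : ι → Type w'} [∀ i, CommRing (R i)] {φ : ∀ i, S →+* R i}

/-- **depth `0 → 1`**. -/
theorem s44g_step0 (B : s44g_Branches O π w p m R φ) {u : S} (hu : IsUnit u)
    (hsplit : ∀ i, s44g_Split O π p 1 (φ i) u) : s44g_Depth O π p 1 u := by
  have H : ∀ i, ∃ c ∈ O, ∃ c' ∈ O, c * c' = 1 ∧ ∃ s : S, u - c * s ^ p ∈ B.P i := by
    intro i
    obtain ⟨c, hc, c', hc', hcc, g, r, hg⟩ := hsplit i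
    rw [pow_one] at hg
    -- `g^p ≡ φ (c' u)`
    have h1 : φ i π ∣ g ^ p - φ i (c' * u) := by
      refine ⟨- (g ^ p * r), ?_⟩
      have h2 : φ i (c' * u) = φ i (c * c') * g ^ p * (1 + φ i π * r) := by
        rw [map_mul, hg, map_mul]; ring
      rw [h2, hcc, map_one]
      ring
    obtain ⟨s, hs⟩ := B.norm i g (c' * u) h1
    refine ⟨c, hc, c', hc', hcc, s, (B.mem_P i _).2 ?_⟩
    have h3 : φ i π ∣ g ^ p - φ i s ^ p := hs.trans (sub_dvd_pow_sub_pow g (φ i s) p)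
    have h4 : φ i (u - c * s ^ p) = φ i c * (g ^ p - φ i s ^ p) +
        φ i π * (φ i c * g ^ p * r) := by
      rw [map_sub, map_mul, map_pow, hg]; ring
    rw [h4]
    exact dvd_add (Dvd.dvd.mul_left h3 _) (dvd_mul_right _ _)
  obtain ⟨C, hC, C', hC', hCC, d, hd, x, hx⟩ := B.unit_glue hu H
  obtain ⟨d', hdd⟩ := isUnit_iff_exists_inv.1 hd
  refine ⟨C, hC, C', hC', hCC, d, x * C' * d' ^ p, hd, ?_⟩
  have h1 : C * d ^ p * (1 + π ^ 1 * (x * C' * d' ^ p)) =
      C * d ^ p + π * x * (C * C') * (d * d') ^ p := by ring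
  rw [h1, hCC, hdd, one_pow, mul_one, mul_one, ← hx]
  ring

/-- the local step on a branch, in the coordinates of `S`. -/
theorem s44g_step_loc (B : s44g_Branches O π w p m R φ) {u : S} {j : ℕ} (hj : 0 < j)
    (hjm : j < p * m) {C C' d d' h : S} (hC : C ∈ O) (hC' : C' ∈ O) (hCC : C * C' = 1)
    (hdd : d * d' = 1) (hu : u = C * d ^ p * (1 + π ^ j * h)) (i : ι)
    (hsplit : s44g_Split O π p (j + 1) (φ i) u) :
    ∃ γ ∈ O, ∃ t : R i, φ i π ∣ φ i h - φ i γ - t ^ p ∧ (¬ p ∣ j → t = 0) := by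
  obtain ⟨c, hc, c', hc', hcc, g, r, hg⟩ := hsplit
  have heq : 1 + φ i π ^ j * φ i h =
      φ i (C' * c) * (φ i d' * g) ^ p * (1 + φ i π ^ (j + 1) * r) := by
    have h1 : φ i u = φ i C * φ i d ^ p * (1 + φ i π ^ j * φ i h) := by
      rw [hu]; simp only [map_mul, map_add, map_pow, map_one]
    have h2 : φ i C * φ i C' = 1 := by rw [← map_mul, hCC, map_one]
    have h3 : φ i d * φ i d' = 1 := by rw [← map_mul, hdd, map_one]
    calc 1 + φ i π ^ j * φ i h
        = (φ i C * φ i C') * (φ i d * φ i d') ^ p * (1 + φ i π ^ j * φ i h) := by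
          rw [h2, h3]; ring
      _ = φ i C' * φ i d' ^ p * (φ i C * φ i d ^ p * (1 + φ i π ^ j * φ i h)) := by ring
      _ = φ i C' * φ i d' ^ p * (φ i c * g ^ p * (1 + φ i π ^ (j + 1) * r)) := by
          rw [← h1, hg]
      _ = _ := by rw [map_mul]; ring
  have hinv : φ i (C' * c) * φ i (C * c') = 1 := by
    rw [← map_mul]
    have : C' * c * (C * c') = (C * C') * (c * c') := by ring
    rw [this, hCC, hcc, one_mul, map_one]
  obtain ⟨γ, hγ, t, ht, ht0⟩ := s44g_loc_step (B.loc i) hj hjm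
    (Subring.mem_map.2 ⟨C' * c, O.mul_mem hC' hc, rfl⟩)
    (Subring.mem_map.2 ⟨C * c', O.mul_mem hC hc', rfl⟩) hinv heq
  obtain ⟨γ0, hγ0, rfl⟩ := Subring.mem_map.1 hγ
  exact ⟨γ0, hγ0, t, ht, ht0⟩

/-- **depth `j → j + 1`** for `0 < j < p m`. -/
theorem s44g_step (B : s44g_Branches O π w p m R φ) {u : S} {j : ℕ} (hj : 0 < j)
    (hjm : j < p * m) (hD : s44g_Depth O π p j u)
    (hsplit : ∀ i, s44g_Split O π p (j + 1) (φ i) u) : s44g_Depth O π p (j + 1) u := by
  have hp := B.prime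
  have h2p := hp.two_le
  have hm := B.m_pos
  obtain ⟨C, hC, C', hC', hCC, d, h, hd, hu⟩ := hD
  obtain ⟨d', hdd⟩ := isUnit_iff_exists_inv.1 hd
  obtain ⟨j', hj'⟩ : ∃ j', j = j' + 1 := ⟨j - 1, by omega⟩
  have Hloc := fun i => s44g_step_loc B hj hjm hC hC' hCC hdd hu i (hsplit i)
  -- `h = Γ + t^p + π h'`
  have Hglue : ∃ Γ ∈ O, ∃ t : S, π ∣ h - Γ - t ^ p ∧ (¬ p ∣ j → t = 0) := by
    by_cases hpj : p ∣ j
    · have H : ∀ i, ∃ γ ∈ O, ∃ s : S, h - γ - s ^ p ∈ B.P i := by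
        intro i
        obtain ⟨γ, hγ, t, ht, -⟩ := Hloc i
        have h1 : φ i π ∣ t ^ p - φ i (h - γ) := by
          have := (dvd_neg (a := φ i π)).2 ht
          have e : t ^ p - φ i (h - γ) = - (φ i h - φ i γ - t ^ p) := by
            rw [map_sub]; ring
          rwa [e]
        obtain ⟨s, hs⟩ := B.norm i t (h - γ) h1
        refine ⟨γ, hγ, s, (B.mem_P i _).2 ?_⟩
        have h3 : φ i π ∣ t ^ p - φ i s ^ p := hs.trans (sub_dvd_pow_sub_pow _ _ p)
        have e : φ i (h - γ - s ^ p) = (φ i h - φ i γ - t ^ p) + (t ^ p - φ i s ^ p) := by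
          rw [map_sub, map_sub, map_pow]; ring
        rw [e]
        exact dvd_add ht h3
      obtain ⟨Γ, hΓ, t, ht⟩ := B.pow_glue h H
      exact ⟨Γ, hΓ, t, ht, fun hn => absurd hpj hn⟩
    · have H : ∀ i, ∃ γ ∈ O, h - γ ∈ B.P i := by
        intro i
        obtain ⟨γ, hγ, t, ht, ht0⟩ := Hloc i
        rw [ht0 hpj, zero_pow hp.ne_zero, sub_zero, ← map_sub] at ht
        exact ⟨γ, hγ, (B.mem_P i _).2 ht⟩
      obtain ⟨Γ, hΓ, hdv⟩ := B.const_glue h H
      exact ⟨Γ, hΓ, 0, by rwa [zero_pow hp.ne_zero, sub_zero], fun _ => rfl⟩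
  obtain ⟨Γ, hΓ, t, ⟨h', hh'⟩, ht0⟩ := Hglue
  -- `D` with `D^p = 1 + π^j t^p + π^(j+1) X`
  have HD : ∃ D X : S, IsUnit D ∧ D ^ p = 1 + π ^ j * t ^ p + π ^ (j + 1) * X := by
    by_cases hpj : p ∣ j
    · obtain ⟨a, ha⟩ := hpj
      have ha1 : 0 < a := by
        rcases Nat.eq_zero_or_pos a with h0 | h0
        · rw [h0, Nat.mul_zero] at ha; omega
        · exact h0
      have ham : a < m := by
        by_contra hcon
        have := Nat.mul_le_mul_left p (not_lt.mp hcon)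
        omega
      obtain ⟨s, hs⟩ := s44g_add_pow_prime' hp 1 (π ^ a * t)
      have key : j + 1 ≤ m * (p - 1) + a := by
        obtain ⟨q, hq⟩ : ∃ q, p = q + 1 := ⟨p - 1, by omega⟩
        have hq' : p - 1 = q := by omega
        rw [hq']
        rw [hq] at ha
        have : (a + 1) * q ≤ m * q := Nat.mul_le_mul_right q ham
        nlinarith
      obtain ⟨k2, hk2⟩ : ∃ k2, m * (p - 1) + a = j + 1 + k2 :=
        ⟨_, (Nat.add_sub_cancel' key).symm⟩
      refine ⟨1 + π ^ a * t, π ^ k2 * w * t * s, ?_, ?_⟩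
      · have h1 : π ^ a * t ∈ maximalIdeal S :=
          Ideal.mul_mem_right _ _ (Ideal.pow_mem_of_mem _ B.π_max a ha1)
        by_contra h2
        have h3 : 1 + π ^ a * t ∈ maximalIdeal S := (mem_maximalIdeal _).2 h2
        have h4 : (1 : S) ∈ maximalIdeal S := by
          have := Ideal.sub_mem _ h3 h1
          rwa [add_sub_cancel_right] at this
        exact (mem_maximalIdeal _).1 h4 isUnit_one
      · have e1 : (p : S) * (π ^ a * t) * s = π ^ (m * (p - 1) + a) * w * t * s := by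
          rw [B.p_eq, pow_add]; ring
        rw [hs, one_pow, mul_pow, ← pow_mul, mul_comm a p, ← ha, e1, hk2, pow_add π (j + 1)]
        ring
    · refine ⟨1, 0, isUnit_one, ?_⟩
      rw [ht0 hpj, zero_pow hp.ne_zero]
      ring
  obtain ⟨D, X, hDu, hDp⟩ := HD
  obtain ⟨D', hDD'⟩ := isUnit_iff_exists_inv.1 hDu
  -- the inverse of `1 + π^j Γ`
  have hπj : π * (π ^ j' * Γ) = π ^ j * Γ := by rw [hj', pow_succ]; ring
  obtain ⟨v, hv, hv1⟩ := B.O_one_add (x := π ^ j' * Γ) (O.mul_mem (O.pow_mem B.π_mem j') hΓ)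
  rw [hπj] at hv1
  have hπ2 : π ^ j * π ^ j = π ^ (j + 1) * π ^ j' := by rw [hj']; ring
  set Y := h' - X - π ^ j' * Γ * t ^ p - π ^ j * Γ * X with hY
  have hE : 1 + π ^ j * h = (1 + π ^ j * Γ) * D ^ p + π ^ (j + 1) * Y := by
    have hh : h = Γ + t ^ p + π * h' := by linear_combination hh'
    rw [hDp, hh, hY]
    linear_combination (-(Γ * t ^ p)) * hπ2
  refine ⟨C * (1 + π ^ j * Γ),
    O.mul_mem hC (O.add_mem O.one_mem (O.mul_mem (O.pow_mem B.π_mem j) hΓ)), C' * v,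
    O.mul_mem hC' hv, ?_, d * D, Y * v * D' ^ p, hd.mul hDu, ?_⟩
  · have : C * (1 + π ^ j * Γ) * (C' * v) = (C * C') * ((1 + π ^ j * Γ) * v) := by ring
    rw [this, hCC, hv1, one_mul]
  · have e : C * (1 + π ^ j * Γ) * (d * D) ^ p * (1 + π ^ (j + 1) * (Y * v * D' ^ p)) =
        C * d ^ p * ((1 + π ^ j * Γ) * D ^ p +
          π ^ (j + 1) * Y * ((1 + π ^ j * Γ) * v) * (D * D') ^ p) := by ring
    rw [e, hv1, hDD', one_pow, mul_one, mul_one, ← hE, hu]

/-- **(G1-IND)** The depth induction: a unit split to depth `p m` on every branch is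
`C d^p (1 + π ^ (p m) H)` with ONE constant `C`. -/
theorem s44g_ind (B : s44g_Branches O π w p m R φ) {u : S} (hu : IsUnit u)
    (hsplit : ∀ i, s44g_Split O π p (p * m) (φ i) u) :
    ∀ j, 0 < j → j ≤ p * m → s44g_Depth O π p j u := by
  intro j hj
  induction j, hj using Nat.le_induction with
  | base =>
    intro h1
    exact s44g_step0 B hu (fun i => (hsplit i).mono h1)
  | succ j hj ih =>
    intro h1
    exact s44g_step B hj (by omega) (ih (by omega)) (fun i => (hsplit i).mono h1)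

/-- **(G1-IND)**, final form. -/
theorem s44g_ind_top (B : s44g_Branches O π w p m R φ) {u : S} (hu : IsUnit u)
    (hsplit : ∀ i, s44g_Split O π p (p * m) (φ i) u) :
    ∃ C ∈ O, ∃ C' ∈ O, C * C' = 1 ∧ ∃ d H : S, IsUnit d ∧
      u = C * d ^ p * (1 + π ^ (p * m) * H) :=
  s44g_ind B hu hsplit (p * m) (Nat.mul_pos B.prime.pos B.m_pos) le_rfl

/-- **(G1-TOP)** If `u = C d^p (1 + π ^ (p m) H)` is split to depth `p m + 1` on the branch `i`,
then `H ≡ γ + t^p + w t mod π` there: the Artin–Schreier cover `ε^p + w ε = H` is split over the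
branch. -/
theorem s44g_top (B : s44g_Branches O π w p m R φ) {u : S} {C C' d H : S} (hC : C ∈ O)
    (hC' : C' ∈ O) (hCC : C * C' = 1) (hd : IsUnit d)
    (hu : u = C * d ^ p * (1 + π ^ (p * m) * H)) (i : ι)
    (hsplit : s44g_Split O π p (p * m + 1) (φ i) u) :
    ∃ γ ∈ O, ∃ t : R i, φ i π ∣ φ i H - φ i γ - t ^ p - φ i w * t := by
  obtain ⟨d', hdd⟩ := isUnit_iff_exists_inv.1 hd
  obtain ⟨c, hc, c', hc', hcc, g, r, hg⟩ := hsplit
  have heq : 1 + φ i π ^ (p * m) * φ i H =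
      φ i (C' * c) * (φ i d' * g) ^ p * (1 + φ i π ^ (p * m + 1) * r) := by
    have h1 : φ i u = φ i C * φ i d ^ p * (1 + φ i π ^ (p * m) * φ i H) := by
      rw [hu]; simp only [map_mul, map_add, map_pow, map_one]
    have h2 : φ i C * φ i C' = 1 := by rw [← map_mul, hCC, map_one]
    have h3 : φ i d * φ i d' = 1 := by rw [← map_mul, hdd, map_one]
    calc 1 + φ i π ^ (p * m) * φ i H
        = (φ i C * φ i C') * (φ i d * φ i d') ^ p * (1 + φ i π ^ (p * m) * φ i H) := by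
          rw [h2, h3]; ring
      _ = φ i C' * φ i d' ^ p * (φ i C * φ i d ^ p * (1 + φ i π ^ (p * m) * φ i H)) := by ring
      _ = φ i C' * φ i d' ^ p * (φ i c * g ^ p * (1 + φ i π ^ (p * m + 1) * r)) := by
          rw [← h1, hg]
      _ = _ := by rw [map_mul]; ring
  have hinv : φ i (C' * c) * φ i (C * c') = 1 := by
    rw [← map_mul]
    have : C' * c * (C * c') = (C * C') * (c * c') := by ring
    rw [this, hCC, hcc, one_mul, map_one]
  obtain ⟨γ, hγ, t, ht⟩ := s44g_loc_top (B.loc i)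
    (Subring.mem_map.2 ⟨C' * c, O.mul_mem hC' hc, rfl⟩)
    (Subring.mem_map.2 ⟨C * c', O.mul_mem hC hc', rfl⟩) hinv heq
  obtain ⟨γ0, hγ0, rfl⟩ := Subring.mem_map.1 hγ
  exact ⟨γ0, hγ0, t, ht⟩

end

end Fermat.Agent.S44
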