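/-
S44 project, cell [G1] (abstract half of [G] ETALE; helper16).  Mathlib only.  Prefix `s44g_`.

Producers / complements for `Etale/Glue.lean` + `Etale/Ind.lean`:
* `s44g_glue_two`   : at a node (`𝔪 ≤ 𝔭₁ ⊔ 𝔭₂`) functions on the two branches with the same value at
                      the closed point glue;
* `s44g_glue_bool`  : the `glue` field of `s44g_Branches` for two branches indexed by `Bool`;
* `s44g_glue_unique`: the `glue` field for one branch (smooth point);
* `s44g_loc_const`  : (G1-UNIQ) a constant `c ∈ Oˣ` which is `g^p (1 + π^(p m) r)` on a branch is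
                      `b^p + π^(p m) o` with `b, o ∈ O`: the constant `C` of `s44g_ind_top` is unique
                      modulo `(Oˣ)^p (1 + π^(p m) O)` along a branch.
-/
import Mathlib
import Fermat.Agent.S44.Etale.Ind

set_option autoImplicit false

namespace Fermat.Agent.S44

open IsLocalRing

section glue

variable {S : Type*} [CommRing S] [IsLocalRing S]

/-- gluing at a node. -/
theorem s44g_glue_two (P1 P2 : Ideal S) (h : maximalIdeal S ≤ P1 ⊔ P2) (s1 s2 : S)
    (hs : s1 - s2 ∈ maximalIdeal S) : ∃ t : S, t - s1 ∈ P1 ∧ t - s2 ∈ P2 := by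
  obtain ⟨a1, ha1, a2, ha2, hsum⟩ := Submodule.mem_sup.1 (h hs)
  refine ⟨s1 - a1, ?_, ?_⟩
  · have : s1 - a1 - s1 = - a1 := by ring
    rw [this]
    exact P1.neg_mem ha1
  · have : s1 - a1 - s2 = a2 := by linear_combination (-1 : S) * hsum
    rw [this]
    exact ha2

/-- the `glue` field for two branches indexed by `Bool`. -/
theorem s44g_glue_bool {R : Bool → Type*} [∀ i, CommRing (R i)] (φ : ∀ i, S →+* R i) (π : S)
    (h : maximalIdeal S ≤ s44g_brIdeal (φ true) π ⊔ s44g_brIdeal (φ false) π)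
    (s : Bool → S) (hs : ∀ i j, s i - s j ∈ maximalIdeal S) :
    ∃ t : S, ∀ i, φ i π ∣ φ i (t - s i) := by
  obtain ⟨t, h1, h2⟩ := s44g_glue_two _ _ h (s true) (s false) (hs true false)
  refine ⟨t, fun i => ?_⟩
  cases i
  · exact (s44g_mem_brIdeal _ _ _).1 h2
  · exact (s44g_mem_brIdeal _ _ _).1 h1

omit [IsLocalRing S] in
/-- the `glue` field for one branch. -/
theorem s44g_glue_unique {ι : Type*} [Unique ι] {R : ι → Type*} [∀ i, CommRing (R i)]
    (φ : ∀ i, S →+* R i) (π : S) (s : ι → S) :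
    ∃ t : S, ∀ i, φ i π ∣ φ i (t - s i) := by
  refine ⟨s default, fun i => ?_⟩
  rw [Unique.eq_default i, sub_self, map_zero]
  exact dvd_zero _

end glue

section uniq

variable {R : Type*} [CommRing R] {O : Subring R} {π w : R} {p m : ℕ}

/-- **(G1-UNIQ)** a unit constant which is a `p`-th power times `1 + π^(p m) r` on a branch is a
`p`-th power of a constant modulo `π^(p m) O`. -/
theorem s44g_loc_const (L : s44g_Loc O π w p m) {c c' g r : R} (hc : c ∈ O) (hc' : c' ∈ O)
    (hcc : c * c' = 1) (heq : c = g ^ p * (1 + π ^ (p * m) * r)) :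
    ∃ b ∈ O, ∃ o ∈ O, c = b ^ p + π ^ (p * m) * o := by
  have hp := L.prime
  have h2p := hp.two_le
  have hm := L.m_pos
  have hpm : 2 ≤ p * m := by nlinarith
  obtain ⟨j, hj⟩ : ∃ j, p * m = j + 1 := ⟨p * m - 1, by omega⟩
  obtain ⟨m', hm'⟩ : ∃ m', m = m' + 1 := ⟨m - 1, by omega⟩
  have heq' : 1 + π ^ j * 0 = c' * g ^ p * (1 + π ^ (j + 1) * r) := by
    rw [← hj, mul_zero, add_zero]
    have : c' * g ^ p * (1 + π ^ (p * m) * r) = c' * c := by rw [heq]; ring
    rw [this, mul_comm, hcc]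
  have hn : p * m' < j := by
    have : p * m = p * m' + p := by rw [hm']; ring
    omega
  obtain ⟨b, hb, t, ht⟩ := s44g_loc_approx L (by omega : 0 < j) (by omega : j ≤ p * m) hc' hc
    (by rw [mul_comm]; exact hcc) heq' m' hn
  rw [← hm'] at ht
  obtain ⟨s, hs⟩ := s44g_add_pow_prime' hp b (π ^ m * t)
  have e1 : m * (p - 1) + m = p * m := by
    obtain ⟨q, hq⟩ : ∃ q, p = q + 1 := ⟨p - 1, by omega⟩
    have hq' : p - 1 = q := by omega
    rw [hq', hq]; ring
  have e2 : (p : R) * π ^ m = π ^ (p * m) * w := by rw [L.p_mul_pow m, e1]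
  have hgp : g ^ p = b ^ p + π ^ (p * m) * (t ^ p + w * t * s) := by
    rw [ht, hs, mul_pow, ← pow_mul, mul_comm m p]
    have : (p : R) * (π ^ m * t) * s = π ^ (p * m) * w * t * s := by rw [← e2]; ring
    rw [this]; ring
  have h3 : c - b ^ p = π ^ (p * m) * ((t ^ p + w * t * s) * (1 + π ^ (p * m) * r) + b ^ p * r) := by
    rw [heq, hgp]; ring
  obtain ⟨o, ho, hoe⟩ := L.sat_pow (p * m) _ (O.sub_mem hc (O.pow_mem hb p)) ⟨_, h3⟩
  exact ⟨b, hb, o, ho, by rw [← hoe]; ring⟩

end uniq

end Fermat.Agent.S44
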