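/-
S44 project, cell [G1-INST] (helper16): PRODUCERS of the branch data `s44g_Branches` of
`Etale/Glue.lean` from ideal-theoretic data.  Mathlib only.  Prefix `s44gi_`.

* `s44gi_Base`          : the part of `s44g_Branches` which only concerns `(S, O, π, w, p, m)`;
* `s44gi_branches`      : `s44g_Branches` from prime ideals `𝔭 i` of `S` and rings `R i` (domains) with
                          `φ i π` a prime element, `φ i ⁻¹ (π R i) = 𝔭 i`, `R i / π = Frac (S / 𝔭 i)`
                          (`hfrac`), `S / 𝔭 i` `p`-root closed in its fraction field (`hic`),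
                          `⋂ 𝔭 i = π S` (`hred`) and gluing (`hglue`);
* `s44gi_hic_of_closed` : `hic` from `IsIntegrallyClosed (S ⧸ 𝔭)`;
* `s44gi_closed_of_principal` : a noetherian local domain with principal maximal ideal is integrally
                          closed (a DVR or a field) — the branches of a node / a smooth point.
-/
import Mathlib
import Fermat.Agent.S44.Etale.Extra

set_option autoImplicit false

namespace Fermat.Agent.S44

open IsLocalRing

universe u v w'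

/-- the base part of the branch data. -/
structure s44gi_Base {S : Type u} [CommRing S] [IsLocalRing S] (O : Subring S) (π w : S)
    (p m : ℕ) : Prop where
  prime : p.Prime
  m_pos : 0 < m
  reg : π ∈ nonZeroDivisors S
  π_mem : π ∈ O
  π_max : π ∈ maximalIdeal S
  p_eq : (p : S) = π ^ (m * (p - 1)) * w
  O_sat : ∀ x ∈ O, x ∈ maximalIdeal S → ∃ y ∈ O, x = π * y
  O_unit : ∀ x ∈ O, IsUnit x → ∃ y ∈ O, x * y = 1
  O_perf : ∀ c ∈ O, ∃ b ∈ O, π ∣ b ^ p - c

section

variable {S : Type u} [CommRing S] [IsLocalRing S] {O : Subring S} {π w : S} {p m : ℕ}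
  {ι : Type v} {R : ι → Type w'} [∀ i, CommRing (R i)] [∀ i, IsDomain (R i)]
  {φ : ∀ i, S →+* R i}

/-- **the producer of the branch data.** -/
theorem s44gi_branches (hB : s44gi_Base O π w p m) (𝔭 : ι → Ideal S)
    (hprime : ∀ i, Prime (φ i π))
    (hcontr : ∀ i s, φ i π ∣ φ i s ↔ s ∈ 𝔭 i)
    (hfrac : ∀ i (t : R i), ∃ a b : S, b ∉ 𝔭 i ∧ φ i π ∣ φ i b * t - φ i a)
    (hic : ∀ i, ∀ a b s : S, b ∉ 𝔭 i → a ^ p - b ^ p * s ∈ 𝔭 i → ∃ s' : S, a - b * s' ∈ 𝔭 i)
    (hred : ∀ s : S, (∀ i, s ∈ 𝔭 i) → π ∣ s)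
    (hglue : ∀ s : ι → S, (∀ i j, s i - s j ∈ maximalIdeal S) →
      ∃ t : S, ∀ i, t - s i ∈ 𝔭 i) :
    s44g_Branches O π w p m R φ where
  prime := hB.prime
  m_pos := hB.m_pos
  reg := hB.reg
  π_mem := hB.π_mem
  π_max := hB.π_max
  p_eq := hB.p_eq
  O_sat := hB.O_sat
  O_unit := hB.O_unit
  O_perf := hB.O_perf
  regR := fun i => mem_nonZeroDivisors_of_ne_zero (hprime i).ne_zero
  nonunit := fun i => (hprime i).not_isUnit
  rad := fun i x hx => (hprime i).dvd_of_dvd_pow hx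
  red := fun s hs => hred s fun i => (hcontr i s).1 (hs i)
  norm := by
    intro i t s hts
    obtain ⟨a, b, hb, hab⟩ := hfrac i t
    -- `a^p ≡ b^p s` mod `𝔭 i`
    have h1 : a ^ p - b ^ p * s ∈ 𝔭 i := by
      rw [← hcontr i]
      have h2 : φ i π ∣ (φ i b * t) ^ p - φ i a ^ p :=
        hab.trans (sub_dvd_pow_sub_pow _ _ p)
      have h3 : φ i (a ^ p - b ^ p * s) =
          φ i b ^ p * (t ^ p - φ i s) - ((φ i b * t) ^ p - φ i a ^ p) := by
        simp only [map_sub, map_mul, map_pow]; ring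
      rw [h3]
      exact dvd_sub (Dvd.dvd.mul_left hts _) h2
    obtain ⟨s', hs'⟩ := hic i a b s hb h1
    refine ⟨s', ?_⟩
    -- `φ b (t - φ s') ≡ 0`, and `φ b` is prime to `φ π`
    have h4 : φ i π ∣ φ i b * (t - φ i s') := by
      have h5 : φ i π ∣ φ i (a - b * s') := (hcontr i _).2 hs'
      have h6 : φ i b * (t - φ i s') = (φ i b * t - φ i a) + φ i (a - b * s') := by
        simp only [map_sub, map_mul]; ring
      rw [h6]
      exact dvd_add hab h5
    rcases (hprime i).dvd_or_dvd h4 with h7 | h7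
    · exact absurd ((hcontr i b).1 h7) hb
    · exact h7
  glue := by
    intro s hs
    obtain ⟨t, ht⟩ := hglue s hs
    exact ⟨t, fun i => (hcontr i _).2 (ht i)⟩

end

/-- `hic` from integral closedness of `S ⧸ 𝔭`. -/
theorem s44gi_hic_of_closed {S : Type*} [CommRing S] (𝔭 : Ideal S) [𝔭.IsPrime]
    [IsIntegrallyClosed (S ⧸ 𝔭)] {p : ℕ} (hp : 0 < p) (a b s : S) (hb : b ∉ 𝔭)
    (h : a ^ p - b ^ p * s ∈ 𝔭) : ∃ s' : S, a - b * s' ∈ 𝔭 := by
  set D := S ⧸ 𝔭
  set K := FractionRing D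
  have hb0 : (Ideal.Quotient.mk 𝔭 b : D) ≠ 0 := by
    rwa [Ne, Ideal.Quotient.eq_zero_iff_mem]
  have hbK : algebraMap D K (Ideal.Quotient.mk 𝔭 b) ≠ 0 := by
    rwa [Ne, IsFractionRing.to_map_eq_zero_iff]
  have heq : (Ideal.Quotient.mk 𝔭 a : D) ^ p =
      (Ideal.Quotient.mk 𝔭 b) ^ p * Ideal.Quotient.mk 𝔭 s := by
    rw [← map_pow, ← map_pow, ← map_mul, ← sub_eq_zero, ← map_sub,
      Ideal.Quotient.eq_zero_iff_mem]
    exact h
  set x : K := algebraMap D K (Ideal.Quotient.mk 𝔭 a) / algebraMap D K (Ideal.Quotient.mk 𝔭 b)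
  have hA : algebraMap D K (Ideal.Quotient.mk 𝔭 a) ^ p =
      algebraMap D K (Ideal.Quotient.mk 𝔭 b) ^ p * algebraMap D K (Ideal.Quotient.mk 𝔭 s) := by
    have := congrArg (algebraMap D K) heq
    simpa only [map_pow, map_mul] using this
  have hx : x ^ p = algebraMap D K (Ideal.Quotient.mk 𝔭 s) := by
    rw [div_pow, hA]
    exact mul_div_cancel_left₀ _ (pow_ne_zero p hbK)
  have hint : IsIntegral D x := by
    refine ⟨Polynomial.X ^ p - Polynomial.C (Ideal.Quotient.mk 𝔭 s),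
      Polynomial.monic_X_pow_sub_C _ hp.ne', ?_⟩
    rw [Polynomial.eval₂_sub, Polynomial.eval₂_pow, Polynomial.eval₂_X, Polynomial.eval₂_C, hx,
      sub_self]
  obtain ⟨y, hy⟩ := IsIntegrallyClosed.isIntegral_iff.1 hint
  obtain ⟨s', rfl⟩ := Ideal.Quotient.mk_surjective y
  refine ⟨s', ?_⟩
  rw [← Ideal.Quotient.eq_zero_iff_mem, map_sub, map_mul, sub_eq_zero]
  apply IsFractionRing.injective D K
  rw [map_mul, hy]
  show algebraMap D K (Ideal.Quotient.mk 𝔭 a) = algebraMap D K (Ideal.Quotient.mk 𝔭 b) *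
    (algebraMap D K (Ideal.Quotient.mk 𝔭 a) / algebraMap D K (Ideal.Quotient.mk 𝔭 b))
  rw [mul_comm, div_mul_cancel₀ _ hbK]

/-- a noetherian local domain with principal maximal ideal is integrally closed. -/
theorem s44gi_closed_of_principal {D : Type*} [CommRing D] [IsDomain D] [IsLocalRing D]
    [IsNoetherianRing D] (h : (maximalIdeal D).IsPrincipal) : IsIntegrallyClosed D := by
  have h3 : IsIntegrallyClosed D ∧ ∀ P : Ideal D, P ≠ ⊥ → P.IsPrime → P = maximalIdeal D :=
    ((tfae_of_isNoetherianRing_of_isLocalRing_of_isDomain D).out 4 3).1 h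
  exact h3.1

end Fermat.Agent.S44
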