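/-
S44 project, cell [G1-INST] (helper16): the branch data `s44g_Branches` with the LOCALISATIONS
`S_𝔭` as branch rings; the node and the smooth point.  Mathlib only.  Prefix `s44gi_`.

* `s44gi_loc_dvd`, `s44gi_loc_prime` : if `𝔭 S_𝔭 = π S_𝔭` (`hgen`) then `π` is a prime element of
                                       `S_𝔭` dividing every non-unit;
* `s44gi_quot_closed`  : `𝔪_S ≤ 𝔭 ⊔ (t)` ⟹ `S ⧸ 𝔭` is integrally closed (`S` noetherian local);
* `s44gi_branches_loc` : `s44g_Branches` for `R i := Localization.AtPrime (𝔭 i)`;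
* `s44gi_node`         : **the node**: `𝔪_S = (π, u₁, u₂)`, `π ∣ u₁ u₂`, `(π) = 𝔭₁ ⊓ 𝔭₂`, `u_b ∉ 𝔭_b`;
* `s44gi_smooth`       : **the smooth point**: `π` prime in `S`, `𝔪_S = (π, t)`.
-/
import Mathlib
import Fermat.Agent.S44.Etale.Inst

set_option autoImplicit false

namespace Fermat.Agent.S44

open IsLocalRing

universe u v

section loc

variable {S : Type u} [CommRing S] (𝔭 : Ideal S) [h𝔭 : 𝔭.IsPrime] (π : S)

/-- if `𝔭 S_𝔭 = π S_𝔭` then `π` divides every non-unit of `S_𝔭`. -/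
theorem s44gi_loc_dvd (hgen : ∀ x ∈ 𝔭, ∃ y, y ∉ 𝔭 ∧ π ∣ x * y)
    (x : Localization.AtPrime 𝔭) (hx : ¬ IsUnit x) :
    algebraMap S (Localization.AtPrime 𝔭) π ∣ x := by
  obtain ⟨a, b, rfl⟩ := IsLocalization.exists_mk'_eq 𝔭.primeCompl x
  have ha : a ∈ 𝔭 := by
    by_contra ha
    exact hx ((IsLocalization.AtPrime.isUnit_mk'_iff (Localization.AtPrime 𝔭) 𝔭 a b).2 ha)
  obtain ⟨y, hy, c, hc⟩ := hgen a ha
  refine ⟨IsLocalization.mk' (Localization.AtPrime 𝔭) c (b * ⟨y, hy⟩), ?_⟩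
  rw [IsLocalization.mul_mk'_eq_mk'_of_mul, ← hc]
  rw [IsLocalization.mk'_eq_iff_eq]
  congr 1
  simp only [Submonoid.coe_mul]
  ring

/-- if `𝔭 S_𝔭 = π S_𝔭`, `π ∈ 𝔭`, `π ≠ 0` in the domain `S`, then `π` is a prime element of `S_𝔭`. -/
theorem s44gi_loc_prime [IsDomain S] (hπ0 : π ≠ 0) (hπ : π ∈ 𝔭)
    (hgen : ∀ x ∈ 𝔭, ∃ y, y ∉ 𝔭 ∧ π ∣ x * y) :
    Prime (algebraMap S (Localization.AtPrime 𝔭) π) := by
  have hnu : ¬ IsUnit (algebraMap S (Localization.AtPrime 𝔭) π) := fun h =>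
    ((IsLocalization.AtPrime.isUnit_to_map_iff (Localization.AtPrime 𝔭) 𝔭 π).1 h) hπ
  refine ⟨?_, hnu, ?_⟩
  · rw [Ne, IsLocalization.to_map_eq_zero_iff (Localization.AtPrime 𝔭)
      𝔭.primeCompl_le_nonZeroDivisors]
    exact hπ0
  · intro x y hxy
    by_cases hx : IsUnit x
    · by_cases hy : IsUnit y
      · exact absurd (isUnit_of_dvd_unit hxy (hx.mul hy)) hnu
      · exact Or.inr (s44gi_loc_dvd 𝔭 π hgen y hy)
    · exact Or.inl (s44gi_loc_dvd 𝔭 π hgen x hx)

end loc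

/-- `𝔪_S ≤ 𝔭 ⊔ (t)`, `t ∈ 𝔪_S` ⟹ `S ⧸ 𝔭` is integrally closed. -/
theorem s44gi_quot_closed {S : Type u} [CommRing S] [IsLocalRing S] [IsNoetherianRing S]
    (𝔭 : Ideal S) [𝔭.IsPrime] (t : S) (ht : t ∈ maximalIdeal S)
    (h : maximalIdeal S ≤ 𝔭 ⊔ Ideal.span {t}) : IsIntegrallyClosed (S ⧸ 𝔭) := by
  have : IsLocalRing (S ⧸ 𝔭) :=
    IsLocalRing.of_surjective' (Ideal.Quotient.mk 𝔭) Ideal.Quotient.mk_surjective
  apply s44gi_closed_of_principal
  refine ⟨Ideal.Quotient.mk 𝔭 t, ?_⟩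
  have h𝔭le : 𝔭 ≤ maximalIdeal S := le_maximalIdeal (Ideal.IsPrime.ne_top inferInstance)
  apply le_antisymm
  · intro x hx
    obtain ⟨x0, rfl⟩ := Ideal.Quotient.mk_surjective x
    have hx0 : x0 ∈ maximalIdeal S := by
      by_contra hcon
      have hu : IsUnit x0 := by
        by_contra hnu
        exact hcon ((mem_maximalIdeal x0).2 hnu)
      exact (mem_maximalIdeal _).1 hx (hu.map (Ideal.Quotient.mk 𝔭))
    obtain ⟨a, ha, b, hb, hab⟩ := Submodule.mem_sup.1 (h hx0)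
    obtain ⟨c, rfl⟩ := Ideal.mem_span_singleton.1 hb
    rw [← hab, map_add, Ideal.Quotient.eq_zero_iff_mem.2 ha, zero_add, map_mul]
    exact Ideal.mem_span_singleton.2 (dvd_mul_right _ _)
  · rw [Submodule.span_singleton_le_iff_mem]
    rw [mem_maximalIdeal, mem_nonunits_iff]
    intro hu
    obtain ⟨y, hy⟩ := isUnit_iff_exists_inv.1 hu
    obtain ⟨y0, rfl⟩ := Ideal.Quotient.mk_surjective y
    have h1 : t * y0 - 1 ∈ 𝔭 := by
      rw [← Ideal.Quotient.eq_zero_iff_mem, map_sub, map_mul, hy, map_one, sub_self]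
    have h2 : t * y0 ∈ maximalIdeal S := Ideal.mul_mem_right _ _ ht
    have h3 : (1 : S) ∈ maximalIdeal S := by
      have := Ideal.sub_mem _ h2 (h𝔭le h1)
      rwa [sub_sub_cancel] at this
    exact (mem_maximalIdeal _).1 h3 isUnit_one

section branches

variable {S : Type u} [CommRing S] [IsDomain S] [IsLocalRing S] {O : Subring S} {π w : S}
  {p m : ℕ} {ι : Type v}

/-- **the branch data with the localisations as branch rings.** -/
theorem s44gi_branches_loc (hB : s44gi_Base O π w p m) (𝔭 : ι → Ideal S)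
    [h𝔭 : ∀ i, (𝔭 i).IsPrime] (hπ : ∀ i, π ∈ 𝔭 i)
    (hgen : ∀ i, ∀ x ∈ 𝔭 i, ∃ y, y ∉ 𝔭 i ∧ π ∣ x * y)
    (hic : ∀ i, IsIntegrallyClosed (S ⧸ 𝔭 i))
    (hred : ∀ s : S, (∀ i, s ∈ 𝔭 i) → π ∣ s)
    (hglue : ∀ s : ι → S, (∀ i j, s i - s j ∈ maximalIdeal S) →
      ∃ t : S, ∀ i, t - s i ∈ 𝔭 i) :
    s44g_Branches O π w p m (fun i => Localization.AtPrime (𝔭 i))
      (fun i => algebraMap S (Localization.AtPrime (𝔭 i))) := by
  have hπ0 : π ≠ 0 := nonZeroDivisors.ne_zero hB.reg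
  have hprime := fun i => s44gi_loc_prime (𝔭 i) π hπ0 (hπ i) (hgen i)
  refine s44gi_branches (R := fun i => Localization.AtPrime (𝔭 i))
    (φ := fun i => algebraMap S (Localization.AtPrime (𝔭 i))) hB 𝔭 hprime ?_ ?_ ?_ hred hglue
  · intro i s
    constructor
    · intro hdvd
      by_contra hs
      have hu : IsUnit (algebraMap S (Localization.AtPrime (𝔭 i)) s) :=
        (IsLocalization.AtPrime.isUnit_to_map_iff (Localization.AtPrime (𝔭 i)) (𝔭 i) s).2 hs
      exact (hprime i).not_isUnit (isUnit_of_dvd_unit hdvd hu)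
    · intro hs
      apply s44gi_loc_dvd (𝔭 i) π (hgen i)
      intro hu
      exact ((IsLocalization.AtPrime.isUnit_to_map_iff (Localization.AtPrime (𝔭 i)) (𝔭 i) s).1 hu)
        hs
  · intro i t
    obtain ⟨a, b, rfl⟩ := IsLocalization.exists_mk'_eq (𝔭 i).primeCompl t
    refine ⟨a, b, b.2, ?_⟩
    rw [IsLocalization.mk'_spec', sub_self]
    exact dvd_zero _
  · intro i a b s hb h
    have := hic i
    exact s44gi_hic_of_closed (𝔭 i) hB.prime.pos a b s hb h

variable [IsNoetherianRing S]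

/-- **the node**: `𝔪_S = (π, u₁, u₂)`, `π ∣ u₁ u₂`, `𝔭₁ ∩ 𝔭₂ = (π)`, `u_b ∉ 𝔭_b`
(so `u_b` is the parameter of the branch `𝔭_b` and vanishes on the other one). -/
theorem s44gi_node (hB : s44gi_Base O π w p m) (𝔭 : Bool → Ideal S)
    [h𝔭 : ∀ b, (𝔭 b).IsPrime] (u : Bool → S) (hπ : ∀ b, π ∈ 𝔭 b)
    (hrad : ∀ s : S, s ∈ 𝔭 true → s ∈ 𝔭 false → π ∣ s)
    (hu : ∀ b, u b ∉ 𝔭 b) (humax : ∀ b, u b ∈ maximalIdeal S)
    (huv : π ∣ u true * u false)
    (hmax : maximalIdeal S ≤ Ideal.span {π, u true, u false}) :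
    s44g_Branches O π w p m (fun b => Localization.AtPrime (𝔭 b))
      (fun b => algebraMap S (Localization.AtPrime (𝔭 b))) := by
  -- `u (!b) ∈ 𝔭 b`
  have hother : ∀ b, u (!b) ∈ 𝔭 b := by
    intro b
    have h1 : u true * u false ∈ 𝔭 b := Ideal.mem_of_dvd _ huv (hπ b)
    cases b
    · rcases (h𝔭 false).mem_or_mem h1 with h2 | h2
      · exact h2
      · exact absurd h2 (hu false)
    · rcases (h𝔭 true).mem_or_mem h1 with h2 | h2
      · exact absurd h2 (hu true)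
      · exact h2
  have hrad' : ∀ b, ∀ s : S, s ∈ 𝔭 b → s ∈ 𝔭 (!b) → π ∣ s := by
    intro b s h1 h2
    cases b
    · exact hrad s h2 h1
    · exact hrad s h1 h2
  have hle : ∀ b, maximalIdeal S ≤ 𝔭 b ⊔ Ideal.span {u b} := by
    intro b
    refine hmax.trans ?_
    rw [Ideal.span_le]
    rintro x (rfl | rfl | hx)
    · exact Ideal.mem_sup_left (hπ b)
    · cases b
      · exact Ideal.mem_sup_left (hother false)
      · exact Ideal.mem_sup_right (Ideal.mem_span_singleton_self _)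
    · rw [Set.mem_singleton_iff] at hx
      subst hx
      cases b
      · exact Ideal.mem_sup_right (Ideal.mem_span_singleton_self _)
      · exact Ideal.mem_sup_left (hother true)
  refine s44gi_branches_loc hB 𝔭 hπ ?_ ?_ ?_ ?_
  · intro b x hx
    refine ⟨u b, hu b, hrad' b _ (Ideal.mul_mem_right _ _ hx) ?_⟩
    have := hother (!b)
    rw [Bool.not_not] at this
    exact Ideal.mul_mem_left _ _ this
  · intro b
    exact s44gi_quot_closed (𝔭 b) (u b) (humax b) (hle b)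
  · intro s hs
    exact hrad s (hs true) (hs false)
  · intro s hs
    have hsup : maximalIdeal S ≤ 𝔭 true ⊔ 𝔭 false := by
      refine (hle true).trans (sup_le le_sup_left ?_)
      rw [Ideal.span_le, Set.singleton_subset_iff]
      exact Ideal.mem_sup_right (hother false)
    obtain ⟨t, h1, h2⟩ := s44g_glue_two _ _ hsup (s true) (s false) (hs true false)
    refine ⟨t, fun b => ?_⟩
    cases b
    · exact h2
    · exact h1

/-- **the smooth point**: `π` a prime element of `S`, `𝔪_S = (π, t)`. -/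
theorem s44gi_smooth (hB : s44gi_Base O π w p m) (hπ : Prime π) (t : S)
    (ht : t ∈ maximalIdeal S) (hmax : maximalIdeal S ≤ Ideal.span {π, t}) :
    haveI : (Ideal.span {π}).IsPrime := (Ideal.span_singleton_prime hπ.ne_zero).2 hπ
    s44g_Branches O π w p m (fun _ : Unit => Localization.AtPrime (Ideal.span {π}))
      (fun _ => algebraMap S (Localization.AtPrime (Ideal.span {π}))) := by
  have : (Ideal.span {π}).IsPrime := (Ideal.span_singleton_prime hπ.ne_zero).2 hπ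
  refine s44gi_branches_loc hB (fun _ : Unit => Ideal.span {π})
    (fun _ => Ideal.mem_span_singleton_self π) ?_ ?_ ?_ ?_
  · intro _ x hx
    refine ⟨1, ?_, ?_⟩
    · intro h1
      exact (Ideal.IsPrime.ne_top inferInstance) ((Ideal.eq_top_iff_one _).2 h1)
    · rw [mul_one]
      exact Ideal.mem_span_singleton.1 hx
  · intro _
    refine s44gi_quot_closed (Ideal.span {π}) t ht (hmax.trans ?_)
    rw [Ideal.span_le]
    rintro x (rfl | hx)
    · exact Ideal.mem_sup_left (Ideal.mem_span_singleton_self _)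
    · rw [Set.mem_singleton_iff] at hx
      subst hx
      exact Ideal.mem_sup_right (Ideal.mem_span_singleton_self _)
  · intro s hs
    exact Ideal.mem_span_singleton.1 (hs ())
  · intro s _
    exact ⟨s (), fun _ => by rw [sub_self]; exact Ideal.zero_mem _⟩

end branches

end Fermat.Agent.S44
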