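/-
S44 project, cell [G1-INST] (helper16): generic pieces for the instance of `s44g_Branches` in the SS
model vocabulary.  Mathlib only.  Prefix `s44gi_`.

* `s44gi_atPrime_dvd`, `s44gi_atPrime_prime`, `s44gi_atPrime_dvd_iff` : for ANY localisation `R'` of
  `R` at a prime `P` with `P R' = π R'` (`hgen`): `π` is a prime element of `R'` and divides exactly
  the non-units;
* `s44gi_base_of_dvr` : the base data `s44gi_Base` for the constants `O := range (A0 → S)`, `A0` a
  discrete valuation ring with uniformiser `π₀`, perfect residue field, `(p : A0) = π₀^(m(p-1)) w₀`,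
  dominated by the local ring `S`.
-/
import Mathlib
import Fermat.Agent.S44.Etale.InstLoc

set_option autoImplicit false

namespace Fermat.Agent.S44

open IsLocalRing

section atPrime

variable {R : Type*} [CommRing R] (P : Ideal R) [hP : P.IsPrime] (R' : Type*) [CommRing R']
  [Algebra R R'] [IsLocalization.AtPrime R' P] (π : R)

/-- if `P R' = π R'` then `π` divides every non-unit of `R' = R_P`. -/
theorem s44gi_atPrime_dvd (hgen : ∀ x ∈ P, ∃ y, y ∉ P ∧ π ∣ x * y) (x : R') (hx : ¬ IsUnit x) :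
    algebraMap R R' π ∣ x := by
  obtain ⟨a, b, rfl⟩ := IsLocalization.exists_mk'_eq P.primeCompl x
  have ha : a ∈ P := by
    by_contra ha
    exact hx ((IsLocalization.AtPrime.isUnit_mk'_iff R' P a b).2 ha)
  obtain ⟨y, hy, c, hc⟩ := hgen a ha
  refine ⟨IsLocalization.mk' R' c (b * ⟨y, hy⟩), ?_⟩
  rw [IsLocalization.mul_mk'_eq_mk'_of_mul, ← hc, IsLocalization.mk'_eq_iff_eq]
  congr 1
  simp only [Submonoid.coe_mul]
  ring

/-- `π` is not a unit of `R_P` when `π ∈ P`. -/
theorem s44gi_atPrime_not_isUnit (hπ : π ∈ P) : ¬ IsUnit (algebraMap R R' π) := fun h =>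
  ((IsLocalization.AtPrime.isUnit_to_map_iff R' P π).1 h) hπ

/-- `π ∣ x ↔ x` is not a unit. -/
theorem s44gi_atPrime_dvd_iff (hπ : π ∈ P) (hgen : ∀ x ∈ P, ∃ y, y ∉ P ∧ π ∣ x * y) (x : R') :
    algebraMap R R' π ∣ x ↔ ¬ IsUnit x :=
  ⟨fun h hu => s44gi_atPrime_not_isUnit P R' π hπ (isUnit_of_dvd_unit h hu),
    s44gi_atPrime_dvd P R' π hgen x⟩

/-- `π` is a prime element of `R_P`. -/
theorem s44gi_atPrime_prime [IsDomain R] (hπ0 : π ≠ 0) (hπ : π ∈ P)
    (hgen : ∀ x ∈ P, ∃ y, y ∉ P ∧ π ∣ x * y) : Prime (algebraMap R R' π) := by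
  have hnu := s44gi_atPrime_not_isUnit P R' π hπ
  refine ⟨?_, hnu, ?_⟩
  · rw [Ne, IsLocalization.to_map_eq_zero_iff R' P.primeCompl_le_nonZeroDivisors]
    exact hπ0
  · intro x y hxy
    by_cases hx : IsUnit x
    · by_cases hy : IsUnit y
      · exact absurd (isUnit_of_dvd_unit hxy (hx.mul hy)) hnu
      · exact Or.inr (s44gi_atPrime_dvd P R' π hgen y hy)
    · exact Or.inl (s44gi_atPrime_dvd P R' π hgen x hx)

end atPrime

section base

variable {A0 : Type*} [CommRing A0] [IsDomain A0] [IsDiscreteValuationRing A0]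
  {S : Type*} [CommRing S] [IsLocalRing S]

/-- **the base data** for the constants coming from a discrete valuation ring `A0`. -/
theorem s44gi_base_of_dvr (ψ : A0 →+* S) {π0 w0 : A0} (hπ0 : Irreducible π0) {p m : ℕ}
    (hp : p.Prime) (hm : 0 < m) (hpe : (p : A0) = π0 ^ (m * (p - 1)) * w0)
    (hperf : ∀ c : A0, ∃ b : A0, π0 ∣ b ^ p - c)
    (hreg : ψ π0 ∈ nonZeroDivisors S) (hmax : ψ π0 ∈ maximalIdeal S) :
    s44gi_Base ψ.range (ψ π0) (ψ w0) p m where
  prime := hp
  m_pos := hm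
  reg := hreg
  π_mem := ⟨π0, rfl⟩
  π_max := hmax
  p_eq := by
    have := congrArg ψ hpe
    rwa [map_natCast, map_mul, map_pow] at this
  O_sat := by
    rintro x ⟨a, rfl⟩ hx
    have ha : ¬ IsUnit a := fun hu => (mem_maximalIdeal _).1 hx (hu.map ψ)
    have ha' : a ∈ maximalIdeal A0 := (mem_maximalIdeal a).2 ha
    rw [(IsDiscreteValuationRing.irreducible_iff_uniformizer π0).1 hπ0,
      Ideal.mem_span_singleton] at ha'
    obtain ⟨c, rfl⟩ := ha'
    exact ⟨ψ c, ⟨c, rfl⟩, map_mul ψ _ _⟩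
  O_unit := by
    rintro x ⟨a, rfl⟩ hx
    have ha : IsUnit a := by
      by_contra ha
      have ha' : a ∈ maximalIdeal A0 := (mem_maximalIdeal a).2 ha
      rw [(IsDiscreteValuationRing.irreducible_iff_uniformizer π0).1 hπ0,
        Ideal.mem_span_singleton] at ha'
      obtain ⟨c, rfl⟩ := ha'
      have : ψ (π0 * c) ∈ maximalIdeal S := by
        rw [map_mul]; exact Ideal.mul_mem_right _ _ hmax
      exact (mem_maximalIdeal _).1 this hx
    obtain ⟨b, hb⟩ := isUnit_iff_exists_inv.1 ha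
    exact ⟨ψ b, ⟨b, rfl⟩, by rw [← map_mul, hb, map_one]⟩
  O_perf := by
    rintro c ⟨c0, rfl⟩
    obtain ⟨b, hb⟩ := hperf c0
    refine ⟨ψ b, ⟨b, rfl⟩, ?_⟩
    have := map_dvd ψ hb
    rwa [map_sub, map_pow] at this

end base

end Fermat.Agent.S44
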