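/-
S44 project, cell [G1-INST] (helper16): the branch data `s44g_Branches` with ARBITRARY localisations
`R i` of `S` at the primes `𝔭 i` (`IsLocalization.AtPrime (R i) (𝔭 i)`) as branch rings — e.g. the
subrings `S_𝔭 ⊆ Frac S`.  Mathlib only.  Prefix `s44gi_`.

* `s44gi_branches_at` : the general producer (twin of `s44gi_branches_loc`);
* `s44gi_node_at`     : the node;
* `s44gi_smooth_at`   : the smooth point.
-/
import Mathlib
import Fermat.Agent.S44.Etale.InstBase

set_option autoImplicit false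

namespace Fermat.Agent.S44

open IsLocalRing

universe u v w'

section branches

variable {S : Type u} [CommRing S] [IsDomain S] [IsLocalRing S] {O : Subring S} {π w : S}
  {p m : ℕ} {ι : Type v}

/-- **the branch data with arbitrary localisations at the `𝔭 i` as branch rings.** -/
theorem s44gi_branches_at (hB : s44gi_Base O π w p m) (𝔭 : ι → Ideal S)
    [h𝔭 : ∀ i, (𝔭 i).IsPrime] (R : ι → Type w') [∀ i, CommRing (R i)] [∀ i, IsDomain (R i)]
    [∀ i, Algebra S (R i)] [∀ i, IsLocalization.AtPrime (R i) (𝔭 i)] (hπ : ∀ i, π ∈ 𝔭 i)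
    (hgen : ∀ i, ∀ x ∈ 𝔭 i, ∃ y, y ∉ 𝔭 i ∧ π ∣ x * y)
    (hic : ∀ i, IsIntegrallyClosed (S ⧸ 𝔭 i))
    (hred : ∀ s : S, (∀ i, s ∈ 𝔭 i) → π ∣ s)
    (hglue : ∀ s : ι → S, (∀ i j, s i - s j ∈ maximalIdeal S) →
      ∃ t : S, ∀ i, t - s i ∈ 𝔭 i) :
    s44g_Branches O π w p m R (fun i => algebraMap S (R i)) := by
  have hπ0 : π ≠ 0 := nonZeroDivisors.ne_zero hB.reg
  have hprime := fun i => s44gi_atPrime_prime (𝔭 i) (R i) π hπ0 (hπ i) (hgen i)
  refine s44gi_branches (R := R) (φ := fun i => algebraMap S (R i)) hB 𝔭 hprime ?_ ?_ ?_ hred hglue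
  · intro i s
    constructor
    · intro hdvd
      by_contra hs
      have hu : IsUnit (algebraMap S (R i) s) :=
        (IsLocalization.AtPrime.isUnit_to_map_iff (R i) (𝔭 i) s).2 hs
      exact (hprime i).not_isUnit (isUnit_of_dvd_unit hdvd hu)
    · intro hs
      apply s44gi_atPrime_dvd (𝔭 i) (R i) π (hgen i)
      intro hu
      exact ((IsLocalization.AtPrime.isUnit_to_map_iff (R i) (𝔭 i) s).1 hu) hs
  · intro i t
    obtain ⟨a, b, rfl⟩ := IsLocalization.exists_mk'_eq (𝔭 i).primeCompl t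
    refine ⟨a, b, b.2, ?_⟩
    rw [IsLocalization.mk'_spec', sub_self]
    exact dvd_zero _
  · intro i a b s hb h
    have := hic i
    exact s44gi_hic_of_closed (𝔭 i) hB.prime.pos a b s hb h

variable [IsNoetherianRing S]

/-- **the node**, arbitrary localisations as branch rings. -/
theorem s44gi_node_at (hB : s44gi_Base O π w p m) (𝔭 : Bool → Ideal S)
    [h𝔭 : ∀ b, (𝔭 b).IsPrime] (R : Bool → Type w') [∀ i, CommRing (R i)] [∀ i, IsDomain (R i)]
    [∀ i, Algebra S (R i)] [∀ i, IsLocalization.AtPrime (R i) (𝔭 i)]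
    (u : Bool → S) (hπ : ∀ b, π ∈ 𝔭 b)
    (hrad : ∀ s : S, s ∈ 𝔭 true → s ∈ 𝔭 false → π ∣ s)
    (hu : ∀ b, u b ∉ 𝔭 b) (humax : ∀ b, u b ∈ maximalIdeal S)
    (huv : π ∣ u true * u false)
    (hmax : maximalIdeal S ≤ Ideal.span {π, u true, u false}) :
    s44g_Branches O π w p m R (fun b => algebraMap S (R b)) := by
  have hother : ∀ b, u (!b) ∈ 𝔭 b := by
    intro b
    have h1 : u true * u false ∈ 𝔭 b := Ideal.mem_of_dvd _ huv (hπ b)
    cases b
    · rcases (h𝔭 false).mem_or_mem h1 with h2 | h2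
      · exact h2
      · exact absurd h2 (hu false)
    · rcases (h𝔭 true).mem_or_mem h1 with h2 | h2
      · exact absurd h2 (hu true)
      · exact h2
  have hrad' : ∀ b, ∀ s : S, s ∈ 𝔭 b → s ∈ 𝔭 (!b) → π ∣ s := by
    intro b s h1 h2
    cases b
    · exact hrad s h2 h1
    · exact hrad s h1 h2
  have hle : ∀ b, maximalIdeal S ≤ 𝔭 b ⊔ Ideal.span {u b} := by
    intro b
    refine hmax.trans ?_
    rw [Ideal.span_le]
    rintro x (rfl | rfl | hx)
    · exact Ideal.mem_sup_left (hπ b)
    · cases b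
      · exact Ideal.mem_sup_left (hother false)
      · exact Ideal.mem_sup_right (Ideal.mem_span_singleton_self _)
    · rw [Set.mem_singleton_iff] at hx
      subst hx
      cases b
      · exact Ideal.mem_sup_right (Ideal.mem_span_singleton_self _)
      · exact Ideal.mem_sup_left (hother true)
  refine s44gi_branches_at hB 𝔭 R hπ ?_ ?_ ?_ ?_
  · intro b x hx
    refine ⟨u b, hu b, hrad' b _ (Ideal.mul_mem_right _ _ hx) ?_⟩
    have := hother (!b)
    rw [Bool.not_not] at this
    exact Ideal.mul_mem_left _ _ this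
  · intro b
    exact s44gi_quot_closed (𝔭 b) (u b) (humax b) (hle b)
  · intro s hs
    exact hrad s (hs true) (hs false)
  · intro s hs
    have hsup : maximalIdeal S ≤ 𝔭 true ⊔ 𝔭 false := by
      refine (hle true).trans (sup_le le_sup_left ?_)
      rw [Ideal.span_le, Set.singleton_subset_iff]
      exact Ideal.mem_sup_right (hother false)
    obtain ⟨t, h1, h2⟩ := s44g_glue_two _ _ hsup (s true) (s false) (hs true false)
    refine ⟨t, fun b => ?_⟩
    cases b
    · exact h2
    · exact h1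

/-- **the smooth point**, an arbitrary localisation at `(π)` as branch ring. -/
theorem s44gi_smooth_at (hB : s44gi_Base O π w p m) (hπ : Prime π)
    [hprime : (Ideal.span {π} : Ideal S).IsPrime] (R : Type w') [CommRing R] [IsDomain R]
    [Algebra S R] [IsLocalization.AtPrime R (Ideal.span {π} : Ideal S)] (t : S)
    (ht : t ∈ maximalIdeal S) (hmax : maximalIdeal S ≤ Ideal.span {π, t}) :
    s44g_Branches O π w p m (fun _ : Unit => R) (fun _ => algebraMap S R) := by
  refine s44gi_branches_at hB (fun _ : Unit => Ideal.span {π}) (fun _ : Unit => R)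
    (fun _ => Ideal.mem_span_singleton_self π) ?_ ?_ ?_ ?_
  · intro _ x hx
    refine ⟨1, ?_, ?_⟩
    · intro h1
      exact (Ideal.IsPrime.ne_top hprime) ((Ideal.eq_top_iff_one _).2 h1)
    · rw [mul_one]
      exact Ideal.mem_span_singleton.1 hx
  · intro _
    refine s44gi_quot_closed (Ideal.span {π}) t ht (hmax.trans ?_)
    rw [Ideal.span_le]
    rintro x (rfl | hx)
    · exact Ideal.mem_sup_left (Ideal.mem_span_singleton_self _)
    · rw [Set.mem_singleton_iff] at hx
      subst hx
      exact Ideal.mem_sup_right (Ideal.mem_span_singleton_self _)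
  · intro s hs
    exact Ideal.mem_span_singleton.1 (hs ())
  · intro s _
    exact ⟨s (), fun _ => by rw [sub_self]; exact Ideal.zero_mem _⟩

end branches

end Fermat.Agent.S44
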