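/-
S44 project, cell [G1] (abstract half of [G] ETALE; helper16).  Mathlib only.  Prefix `s44g_`.

**(G1-AS) The Artin–Schreier form of `y^p = 1 + λ^p H`.**  With `p = λ^(p-1) w`:
`(1 + λ T)^p = 1 + λ^p P₀(T)` with `P₀ = T^p + w T + λ Q` monic of degree `p`,
`P₀' = w + λ Q₂`; so `ε := (y - 1)/λ` is a root of the monic polynomial `P₀ - H`, whose derivative is
a unit modulo `λ` when `w` is a unit: `S[T]/(P₀ - H)` is finite étale over `S` near `λ = 0`.
-/
import Mathlib
import Fermat.Agent.S44.Etale.Loc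

set_option autoImplicit false

namespace Fermat.Agent.S44

open Polynomial

variable {S : Type*} [CommRing S]

/-- `(1 + λ T)^p = 1 + λ^p (T^p + w T + λ Q)`. -/
theorem s44g_AS_poly {p : ℕ} (hp : p.Prime) (lam w : S) (hpe : (p : S) = lam ^ (p - 1) * w) :
    ∃ Q : S[X], (1 + C lam * X) ^ p = 1 + C (lam ^ p) * (X ^ p + C w * X + C lam * Q) := by
  have h2p := hp.two_le
  obtain ⟨s, hs⟩ := s44g_add_pow_prime hp (1 : S[X]) (C lam * X)
  have e1 : (p : S) * lam = lam ^ p * w := by
    rw [hpe]
    have : lam ^ p = lam ^ (p - 1) * lam := by rw [← pow_succ]; congr 1; omega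
    rw [this]; ring
  have e2 : ((p : ℕ) : S[X]) = C (p : S) := (map_natCast C p).symm
  refine ⟨C w * X ^ 2 * s, ?_⟩
  rw [hs, one_pow, one_pow, e2]
  have e3 : C (p : S) * 1 * (C lam * X) = C (lam ^ p) * (C w * X) := by
    rw [mul_one, ← mul_assoc, ← C_mul, e1, C_mul]; ring
  have e4 : C (p : S) * (C lam * X) ^ 2 * s = C (lam ^ p) * (C lam * (C w * X ^ 2 * s)) := by
    have : C (p : S) * (C lam * X) ^ 2 = C ((p : S) * lam) * C lam * X ^ 2 := by
      rw [C_mul]; ring
    rw [this, e1, C_mul]; ring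
  rw [e3, e4, mul_pow, ← C_pow]
  ring

/-- **(G1-AS)** the Artin–Schreier polynomial. -/
theorem s44g_AS {p : ℕ} (hp : p.Prime) (lam w : S) (hpe : (p : S) = lam ^ (p - 1) * w) :
    ∃ P0 : S[X], (1 + C lam * X) ^ p = 1 + C (lam ^ p) * P0 ∧
      (∃ Q : S[X], P0 = X ^ p + C w * X + C lam * Q) ∧
      (∃ Q2 : S[X], derivative P0 = C w + C lam * Q2) ∧
      (Nontrivial S → lam ∈ nonZeroDivisors S → P0.Monic ∧ P0.natDegree = p) := by
  have h2p := hp.two_le
  obtain ⟨Q, hQ⟩ := s44g_AS_poly hp lam w hpe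
  refine ⟨X ^ p + C w * X + C lam * Q, hQ, ⟨Q, rfl⟩, ?_, ?_⟩
  · refine ⟨C (lam ^ (p - 2) * w) * X ^ (p - 1) + derivative Q, ?_⟩
    have e1 : (p : S) = lam * (lam ^ (p - 2) * w) := by
      rw [hpe]
      have : lam ^ (p - 1) = lam * lam ^ (p - 2) := by rw [← pow_succ']; congr 1; omega
      rw [this]; ring
    simp only [derivative_add, derivative_mul, derivative_X_pow, derivative_C, derivative_X,
      zero_mul, zero_add, mul_one]
    have e2 : C ((p : ℕ) : S) = C lam * C (lam ^ (p - 2) * w) := by rw [← C_mul, ← e1]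
    rw [e2]
    ring
  · intro hnt hreg
    set P0 := X ^ p + C w * X + C lam * Q with hP0
    have hregp : lam ^ p ∈ nonZeroDivisors S := pow_mem hreg p
    have hcoeff : ∀ k, lam ^ p * P0.coeff k = ((1 + C lam * X) ^ p - 1 : S[X]).coeff k := by
      intro k
      rw [hQ, add_sub_cancel_left, coeff_C_mul]
    have hdeg1 : (1 + C lam * X : S[X]).natDegree ≤ 1 :=
      (natDegree_add_le _ _).trans (max_le (by simp)
        ((natDegree_C_mul_le lam X).trans natDegree_X_le))
    have hdegp : ((1 + C lam * X) ^ p : S[X]).natDegree ≤ p := by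
      have := natDegree_pow_le_of_le p hdeg1
      simpa using this
    have hc1 : (1 + C lam * X : S[X]).coeff 1 = lam := by
      rw [coeff_add, coeff_one, if_neg (by omega), zero_add, coeff_C_mul, coeff_X_one, mul_one]
    have hcp : ((1 + C lam * X) ^ p : S[X]).coeff p = lam ^ p := by
      have := coeff_pow_of_natDegree_le (n := 1) (m := p) hdeg1
      rw [mul_one, hc1] at this
      exact this
    have hle : P0.natDegree ≤ p := by
      rw [natDegree_le_iff_coeff_eq_zero]
      intro k hk
      have h1 := hcoeff k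
      rw [coeff_sub, coeff_eq_zero_of_natDegree_lt (lt_of_le_of_lt hdegp hk), coeff_one,
        if_neg (by omega), sub_zero] at h1
      exact (mul_right_mem_nonZeroDivisors_eq_zero_iff hregp).1 (by rw [mul_comm]; exact h1)
    have hlead : P0.coeff p = 1 := by
      have h1 := hcoeff p
      rw [coeff_sub, hcp, coeff_one, if_neg (by omega), sub_zero] at h1
      have : lam ^ p * P0.coeff p = lam ^ p * 1 := by rw [h1, mul_one]
      exact (mul_cancel_left_mem_nonZeroDivisors hregp).1 this
    have hnat : P0.natDegree = p := by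
      apply le_antisymm hle
      apply le_natDegree_of_ne_zero
      rw [hlead]
      exact one_ne_zero
    refine ⟨?_, hnat⟩
    rw [Monic, leadingCoeff, hnat, hlead]

/-- a root of `P₀ - H` gives a `p`-th root of `1 + λ^p H`. -/
theorem s44g_AS_root {p : ℕ} {lam : S} {P0 : S[X]}
    (hP0 : (1 + C lam * X) ^ p = 1 + C (lam ^ p) * P0) {T : Type*} [CommRing T] [Algebra S T]
    (ε : T) (H : S) (hε : aeval ε P0 = algebraMap S T H) :
    (1 + algebraMap S T lam * ε) ^ p = algebraMap S T (1 + lam ^ p * H) := by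
  have := congrArg (aeval ε) hP0
  simp only [map_pow, map_add, map_one, map_mul, aeval_C, aeval_X] at this
  rw [this, hε]
  simp only [map_add, map_one, map_mul, map_pow]

/-- a `p`-th root `1 + λ ε` of `1 + λ^p H` gives a root of `P₀ - H`. -/
theorem s44g_AS_root' {p : ℕ} {lam : S} {P0 : S[X]}
    (hP0 : (1 + C lam * X) ^ p = 1 + C (lam ^ p) * P0) {T : Type*} [CommRing T] [Algebra S T]
    (hreg : algebraMap S T lam ∈ nonZeroDivisors T)
    (ε : T) (H : S) (hε : (1 + algebraMap S T lam * ε) ^ p = algebraMap S T (1 + lam ^ p * H)) :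
    aeval ε P0 = algebraMap S T H := by
  have := congrArg (aeval ε) hP0
  simp only [map_pow, map_add, map_one, map_mul, aeval_C, aeval_X] at this
  rw [hε] at this
  simp only [map_add, map_one, map_mul, map_pow] at this
  have h1 : algebraMap S T lam ^ p * aeval ε P0 = algebraMap S T lam ^ p * algebraMap S T H := by
    have := add_left_cancel this
    exact this.symm
  exact (mul_cancel_left_mem_nonZeroDivisors (pow_mem hreg p)).1 h1

end Fermat.Agent.S44
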