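/-
S44 project, cell [G1] (abstract half of [G] ETALE; helper16).  Mathlib only.  Prefix `s44g_`.

**Depth induction, local step.**  `R` a commutative ring, `π ∈ R` a non-zero-divisor, `O ⊆ R` a
subring of "constants" containing `π` with `O ∩ πR = πO`, `p = π ^ (m (p - 1)) * w` (so `π ^ m`
plays the role of `ζ_p - 1`), and "a `p`-th root modulo `π` of a constant is a constant modulo `π`".

* `s44g_add_pow_prime`  : `(x + y)^p = x^p + p x^(p-1) y + y^p + p y² s`;
* `s44g_loc_step`       : for `0 < j < p m`, if `1 + π^j h = c g^p (1 + π^(j+1) r)` with `c ∈ Oˣ`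
                          then `h ≡ γ + t^p mod π` with `γ ∈ O` (and `t = 0` if `p ∤ j`):
                          THE LEADING TERM OF A SPLIT CLASS IS A CONSTANT PLUS A `p`-TH POWER;
* `s44g_loc_top`        : at the étale depth `j = p m`: `H ≡ γ + t^p + w t mod π`
                          (Artin–Schreier form).
-/
import Mathlib

set_option autoImplicit false

namespace Fermat.Agent.S44

open Finset

section binom

variable {R : Type*} [CommRing R]

/-- Refined binomial expansion at a prime exponent. -/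
theorem s44g_add_pow_prime {p : ℕ} (hp : p.Prime) (x y : R) :
    ∃ s : R, (x + y) ^ p = x ^ p + (p : R) * x ^ (p - 1) * y + y ^ p + (p : R) * y ^ 2 * s := by
  classical
  have h2p := hp.two_le
  have h1 := (Commute.all x y).add_pow_prime_eq' hp
  have h2 : Ioo 0 p = insert (p - 1) (Ioo 0 (p - 1)) := by
    ext k
    simp only [mem_Ioo, mem_insert]
    omega
  have h3 : p.choose (p - 1) / p = 1 := by
    have : p.choose (p - 1) = p := by
      rw [Nat.choose_symm (by omega : 1 ≤ p), Nat.choose_one_right]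
    rw [this, Nat.div_self hp.pos]
  refine ⟨∑ k ∈ Ioo 0 (p - 1), x ^ k * y ^ (p - k - 2) * ((p.choose k / p : ℕ) : R), ?_⟩
  have h4 : ∀ k ∈ Ioo 0 (p - 1), x ^ k * y ^ (p - k) * ((p.choose k / p : ℕ) : R) =
      y ^ 2 * (x ^ k * y ^ (p - k - 2) * ((p.choose k / p : ℕ) : R)) := by
    intro k hk
    obtain ⟨hk0, hk1⟩ := mem_Ioo.1 hk
    have h5 : y ^ (p - k) = y ^ 2 * y ^ (p - k - 2) := by
      rw [← pow_add]
      congr 1
      omega
    rw [h5]
    ring
  have h6 : p - 1 ∉ Ioo 0 (p - 1) := by simp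
  have h7 : p - (p - 1) = 1 := by omega
  rw [h1, h2, sum_insert h6, sum_congr rfl h4, ← mul_sum, h3, h7]
  push_cast
  ring

/-- Coarse binomial expansion at a prime exponent. -/
theorem s44g_add_pow_prime' {p : ℕ} (hp : p.Prime) (x y : R) :
    ∃ s : R, (x + y) ^ p = x ^ p + y ^ p + (p : R) * y * s := by
  obtain ⟨r, hr⟩ := exists_add_pow_prime_eq hp x y
  exact ⟨x * r, by rw [hr]; ring⟩

end binom

/-- **Local data** for the depth induction: a ring `R`, a subring of constants `O`, a parameter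
`π`, and `p = π ^ (m (p - 1)) * w`. -/
structure s44g_Loc {R : Type*} [CommRing R] (O : Subring R) (π w : R) (p m : ℕ) : Prop where
  prime : p.Prime
  m_pos : 0 < m
  reg : π ∈ nonZeroDivisors R
  π_mem : π ∈ O
  p_eq : (p : R) = π ^ (m * (p - 1)) * w
  /-- `O ∩ πR = πO`. -/
  sat : ∀ x ∈ O, π ∣ x → ∃ y ∈ O, x = π * y
  /-- a `p`-th root mod `π` of a constant is a constant mod `π`. -/
  root : ∀ g : R, ∀ c ∈ O, π ∣ g ^ p - c → ∃ b ∈ O, π ∣ g - b

namespace s44g_Loc

variable {R : Type*} [CommRing R] {O : Subring R} {π w : R} {p m : ℕ}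

theorem cancel (L : s44g_Loc O π w p m) (n : ℕ) {x y : R} (h : π ^ n * x = π ^ n * y) : x = y :=
  (mul_cancel_left_mem_nonZeroDivisors (pow_mem L.reg n)).1 h

/-- `O ∩ π^n R = π^n O`. -/
theorem sat_pow (L : s44g_Loc O π w p m) : ∀ (n : ℕ) (x : R), x ∈ O → π ^ n ∣ x →
    ∃ y ∈ O, x = π ^ n * y := by
  intro n
  induction n with
  | zero => intro x hx _; exact ⟨x, hx, by simp⟩
  | succ n ih =>
    intro x hx hdvd
    obtain ⟨z, hz⟩ := hdvd
    obtain ⟨y1, hy1, hxy1⟩ := L.sat x hx ⟨π ^ n * z, by rw [hz]; ring⟩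
    have h1 : π ^ n * z = y1 := by
      apply L.cancel 1
      rw [pow_one, ← hxy1, hz]; ring
    obtain ⟨y, hy, hy1y⟩ := ih y1 hy1 ⟨z, h1.symm⟩
    exact ⟨y, hy, by rw [hxy1, hy1y]; ring⟩

/-- `p π^a = π^(m (p - 1) + a) w`. -/
theorem p_mul_pow (L : s44g_Loc O π w p m) (a : ℕ) :
    (p : R) * π ^ a = π ^ (m * (p - 1) + a) * w := by
  rw [L.p_eq, pow_add]; ring

end s44g_Loc

section step

variable {R : Type*} [CommRing R] {O : Subring R} {π w : R} {p m : ℕ}

/-- Step B: the `p`-th root `g` of a split class is a constant modulo `π ^ (n + 1)` as long as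
`p n < j`. -/
theorem s44g_loc_approx (L : s44g_Loc O π w p m) {j : ℕ} (hj : 0 < j) (hjm : j ≤ p * m)
    {h g r c c' : R} (hc : c ∈ O) (hc' : c' ∈ O) (hcc : c * c' = 1)
    (heq : 1 + π ^ j * h = c * g ^ p * (1 + π ^ (j + 1) * r)) :
    ∀ n : ℕ, p * n < j → ∃ b ∈ O, ∃ t : R, g = b + π ^ (n + 1) * t := by
  have hp := L.prime
  have h2p := hp.two_le
  intro n
  induction n with
  | zero =>
    intro _
    -- `c g^p ≡ 1 mod π`
    obtain ⟨j', rfl⟩ : ∃ j', j = j' + 1 := ⟨j - 1, by omega⟩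
    have h1 : π ∣ g ^ p - c' := by
      refine ⟨c' * (π ^ j' * h - c * g ^ p * π ^ (j' + 1) * r), ?_⟩
      linear_combination (-c') * heq + (-g ^ p) * hcc
    obtain ⟨b, hb, t, ht⟩ := L.root g c' hc' h1
    exact ⟨b, hb, t, by rw [zero_add, pow_one, ← ht]; ring⟩
  | succ n ih =>
    intro hn
    obtain ⟨b, hb, t, ht⟩ := ih (by nlinarith)
    -- notation: `a = n + 1`, `p a < j`
    set a := n + 1 with ha
    have hpa : p * a < j := hn
    have ham : a < m := by
      by_contra hcon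
      have : p * m ≤ p * a := Nat.mul_le_mul_left p (not_lt.mp hcon)
      omega
    obtain ⟨s, hs⟩ := s44g_add_pow_prime' hp b (π ^ a * t)
    -- `g^p = b^p + π^(pa) t^p + π^(pa+1) X`
    have hexp : m * (p - 1) + a = (p * a + 1) + ((m - a - 1) * (p - 1) + (p - 2)) := by
      obtain ⟨d, rfl⟩ : ∃ d, m = a + 1 + d := ⟨m - a - 1, by omega⟩
      obtain ⟨q, rfl⟩ : ∃ q, p = q + 2 := ⟨p - 2, by omega⟩
      have : a + 1 + d - a - 1 = d := by omega
      rw [this]
      simp only [Nat.add_sub_cancel]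
      have : q + 2 - 1 = q + 1 := by omega
      rw [this]
      ring
    have hgp : g ^ p = b ^ p + π ^ (p * a) * t ^ p +
        π ^ (p * a + 1) * (π ^ ((m - a - 1) * (p - 1) + (p - 2)) * w * t * s) := by
      rw [ht, hs, mul_pow, ← pow_mul, mul_comm a p]
      have : (p : R) * (π ^ a * t) * s = π ^ (m * (p - 1) + a) * w * t * s := by
        rw [← L.p_mul_pow a]; ring
      rw [this, hexp, pow_add (π) (p * a + 1)]
      ring
    obtain ⟨k, hk⟩ : ∃ k, j = p * a + 1 + k := ⟨j - (p * a + 1), by omega⟩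
    -- `c b^p - 1 ∈ π^(pa) R`
    have h3 : c * b ^ p - 1 = π ^ (p * a) * (- c * t ^ p + π * (π ^ k * h -
        c * g ^ p * (π ^ (k + 1) * r) -
        c * (π ^ ((m - a - 1) * (p - 1) + (p - 2)) * w * t * s))) := by
      have e1 : c * b ^ p = c * g ^ p - c * (π ^ (p * a) * t ^ p) - c * (π ^ (p * a + 1) *
          (π ^ ((m - a - 1) * (p - 1) + (p - 2)) * w * t * s)) := by
        rw [hgp]; ring
      have e2 : c * g ^ p = 1 + π ^ j * h - c * g ^ p * (π ^ (j + 1) * r) := by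
        rw [heq]; ring
      rw [e1]
      conv_lhs => rw [e2]
      rw [hk]
      ring
    obtain ⟨γ, hγ, hγe⟩ := L.sat_pow (p * a) (c * b ^ p - 1)
      (O.sub_mem (O.mul_mem hc (O.pow_mem hb p)) O.one_mem) ⟨_, h3⟩
    have h4 : γ = - c * t ^ p + π * (π ^ k * h -
        c * g ^ p * (π ^ (k + 1) * r) -
        c * (π ^ ((m - a - 1) * (p - 1) + (p - 2)) * w * t * s)) :=
      L.cancel (p * a) (by rw [← hγe, h3])
    -- `t^p ≡ - c' γ mod π`
    have h5 : π ∣ t ^ p - (- c' * γ) := by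
      refine ⟨c' * (π ^ k * h - c * g ^ p * (π ^ (k + 1) * r) -
        c * (π ^ ((m - a - 1) * (p - 1) + (p - 2)) * w * t * s)), ?_⟩
      have : t ^ p = (c * c') * t ^ p := by rw [hcc, one_mul]
      rw [this, h4]
      ring
    obtain ⟨τ, hτ, t', ht'⟩ := L.root t (- c' * γ)
      (O.mul_mem (O.neg_mem hc') hγ) h5
    refine ⟨b + π ^ a * τ, O.add_mem hb (O.mul_mem (O.pow_mem L.π_mem a) hτ), t', ?_⟩
    have : t = τ + π * t' := by rw [← ht']; ring
    rw [ht, this, pow_succ]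
    ring

/-- If `c b^p ≡ 1 mod π` then `(c b^(p-1))^p ≡ c mod π`. -/
theorem s44g_aux_inv_pow {R : Type*} [CommRing R] (π c b γ : R) {p j : ℕ} (hp : 0 < p)
    (hj : 0 < j) (hx : c * b ^ p - 1 = π ^ j * γ) : π ∣ c - (c * b ^ (p - 1)) ^ p := by
  obtain ⟨q, rfl⟩ : ∃ q, p = q + 1 := ⟨p - 1, by omega⟩
  obtain ⟨j', rfl⟩ : ∃ j', j = j' + 1 := ⟨j - 1, by omega⟩
  simp only [Nat.add_sub_cancel]
  set u := c * b ^ q with hu
  set x := c * b ^ (q + 1) with hxdef
  have hxu : x = u * b := by rw [hxdef, hu, pow_succ]; ring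
  have h1 : π ∣ x - 1 := ⟨π ^ j' * γ, by rw [hx, pow_succ]; ring⟩
  have h2 : x - 1 ∣ x ^ (q + 1) - 1 := by
    have := sub_dvd_pow_sub_pow x 1 (q + 1)
    rwa [one_pow] at this
  have h3 : c - u ^ (q + 1) = - c * (x ^ (q + 1) - 1) + u ^ (q + 1) * (x - 1) := by
    have : c * x ^ (q + 1) = u ^ (q + 1) * x := by
      rw [hxu, mul_pow]
      rw [hu]
      ring
    linear_combination (-1 : R) * this
  rw [h3]
  exact dvd_add (Dvd.dvd.mul_left (h1.trans h2) _) (Dvd.dvd.mul_left h1 _)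

/-- **(G1-LOC)** The leading term of a split class at depth `0 < j < p m` is a constant plus a
`p`-th power; if `p ∤ j` it is a constant. -/
theorem s44g_loc_step (L : s44g_Loc O π w p m) {j : ℕ} (hj : 0 < j) (hjm : j < p * m)
    {h g r c c' : R} (hc : c ∈ O) (hc' : c' ∈ O) (hcc : c * c' = 1)
    (heq : 1 + π ^ j * h = c * g ^ p * (1 + π ^ (j + 1) * r)) :
    ∃ γ ∈ O, ∃ t : R, π ∣ h - γ - t ^ p ∧ (¬ p ∣ j → t = 0) := by
  have hp := L.prime
  have h2p := hp.two_le
  have hm := L.m_pos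
  -- the approximation exponent
  have hn1 : p * ((j - 1) / p) < j := by
    have := Nat.mul_div_le (j - 1) p
    omega
  have hn2 : j ≤ p * ((j - 1) / p + 1) := by
    have := Nat.lt_mul_div_succ (j - 1) hp.pos
    omega
  generalize (j - 1) / p = n at hn1 hn2
  obtain ⟨b, hb, t, ht⟩ := s44g_loc_approx L hj hjm.le hc hc' hcc heq n hn1
  set a := n + 1 with ha
  have key : j + 1 ≤ m * (p - 1) + a := by
    obtain ⟨q, hq⟩ : ∃ q, p = q + 1 := ⟨p - 1, by omega⟩
    have hq' : p - 1 = q := by omega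
    rw [hq']
    rw [hq] at hn2 hjm
    rcases le_or_gt m a with h' | h'
    · nlinarith
    · have : (a + 1) * q ≤ m * q := Nat.mul_le_mul_right q h'
      nlinarith
  obtain ⟨k2, hk2⟩ : ∃ k2, m * (p - 1) + a = j + 1 + k2 := ⟨_, (Nat.add_sub_cancel' key).symm⟩
  obtain ⟨s, hs⟩ := s44g_add_pow_prime' hp b (π ^ a * t)
  have hgp : g ^ p = b ^ p + π ^ (p * a) * t ^ p + π ^ (j + 1) * (π ^ k2 * w * t * s) := by
    rw [ht, hs, mul_pow, ← pow_mul, mul_comm a p]
    have : (p : R) * (π ^ a * t) * s = π ^ (m * (p - 1) + a) * w * t * s := by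
      rw [← L.p_mul_pow a]; ring
    rw [this, hk2, pow_add π (j + 1)]
    ring
  have hcb : c * b ^ p - 1 ∈ O := O.sub_mem (O.mul_mem hc (O.pow_mem hb p)) O.one_mem
  rcases Nat.lt_or_ge j (p * a) with hlt | hge
  · -- `j < p a`: the `p`-th power part is absorbed
    obtain ⟨k1, hk1⟩ : ∃ k1, p * a = j + 1 + k1 := ⟨p * a - (j + 1), by omega⟩
    set Y := π ^ k1 * t ^ p + π ^ k2 * w * t * s with hY
    have hgp' : g ^ p = b ^ p + π ^ (j + 1) * Y := by
      rw [hgp, hk1, pow_add π (j + 1), hY]; ring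
    set Z := c * b ^ p * r + c * Y * (1 + π ^ (j + 1) * r) with hZ
    have h3 : c * b ^ p - 1 = π ^ j * (h - π * Z) := by
      rw [hZ]
      rw [hgp'] at heq
      linear_combination (-1 : R) * heq
    obtain ⟨γ, hγ, hγe⟩ := L.sat_pow j _ hcb ⟨_, h3⟩
    have h4 : γ = h - π * Z := L.cancel j (by rw [← hγe, h3])
    refine ⟨γ, hγ, 0, ⟨Z, ?_⟩, fun _ => rfl⟩
    rw [h4, zero_pow hp.ne_zero]
    ring
  · -- `j = p a`
    have hja : j = p * a := le_antisymm hn2 hge
    set Y := π ^ k2 * w * t * s with hY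
    have hgp' : g ^ p = b ^ p + π ^ j * t ^ p + π ^ (j + 1) * Y := by
      rw [hgp, ← hja]
    set Z := c * Y * (1 + π ^ (j + 1) * r) + c * (b ^ p + π ^ j * t ^ p) * r with hZ
    have h3 : c * b ^ p - 1 = π ^ j * (h - c * t ^ p - π * Z) := by
      rw [hZ]
      rw [hgp'] at heq
      linear_combination (-1 : R) * heq
    obtain ⟨γ, hγ, hγe⟩ := L.sat_pow j _ hcb ⟨_, h3⟩
    have h4 : γ = h - c * t ^ p - π * Z := L.cancel j (by rw [← hγe, h3])
    have h5 := s44g_aux_inv_pow π c b γ hp.pos hj hγe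
    refine ⟨γ, hγ, c * b ^ (p - 1) * t, ?_, fun hnd => absurd ⟨a, hja⟩ hnd⟩
    have h6 : h - γ - (c * b ^ (p - 1) * t) ^ p =
        π * Z + (c - (c * b ^ (p - 1)) ^ p) * t ^ p := by
      rw [h4, mul_pow]; ring
    rw [h6]
    exact dvd_add (dvd_mul_right π Z) (Dvd.dvd.mul_right h5 _)

/-- **(G1-LOC-TOP)** At the étale depth `p m` the leading term of a split class has the
Artin–Schreier form `γ + t^p + w t`. -/
theorem s44g_loc_top (L : s44g_Loc O π w p m)
    {H g r c c' : R} (hc : c ∈ O) (hc' : c' ∈ O) (hcc : c * c' = 1)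
    (heq : 1 + π ^ (p * m) * H = c * g ^ p * (1 + π ^ (p * m + 1) * r)) :
    ∃ γ ∈ O, ∃ t : R, π ∣ H - γ - t ^ p - w * t := by
  have hp := L.prime
  have h2p := hp.two_le
  have hm := L.m_pos
  have hj : 0 < p * m := Nat.mul_pos hp.pos hm
  obtain ⟨m', hm'⟩ : ∃ m', m = m' + 1 := ⟨m - 1, by omega⟩
  have hn1 : p * m' < p * m := by rw [hm']; nlinarith
  obtain ⟨b, hb, t, ht⟩ := s44g_loc_approx L hj le_rfl hc hc' hcc heq m' hn1
  rw [← hm'] at ht
  obtain ⟨s, hs⟩ := s44g_add_pow_prime hp b (π ^ m * t)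
  have e1 : m * (p - 1) + m = p * m := by
    obtain ⟨q, hq⟩ : ∃ q, p = q + 1 := ⟨p - 1, by omega⟩
    have hq' : p - 1 = q := by omega
    rw [hq', hq]; ring
  have e2 : (p : R) * π ^ m = π ^ (p * m) * w := by rw [L.p_mul_pow m, e1]
  have e3 : (p : R) * (π ^ m) ^ 2 = π ^ (p * m + 1) * (π ^ m' * w) := by
    have e4 : π ^ m = π ^ m' * π := by rw [hm', pow_succ]
    calc (p : R) * (π ^ m) ^ 2 = ((p : R) * π ^ m) * π ^ m := by ring
      _ = (π ^ (p * m) * w) * (π ^ m' * π) := by rw [e2, ← e4]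
      _ = _ := by rw [pow_succ]; ring
  set Y := π ^ m' * w * t ^ 2 * s with hY
  have hgp : g ^ p = b ^ p + π ^ (p * m) * (w * b ^ (p - 1) * t + t ^ p) +
      π ^ (p * m + 1) * Y := by
    rw [ht, hs, hY]
    have h1 : (p : R) * b ^ (p - 1) * (π ^ m * t) = π ^ (p * m) * w * b ^ (p - 1) * t := by
      rw [← e2]; ring
    have h2 : (p : R) * (π ^ m * t) ^ 2 * s = π ^ (p * m + 1) * (π ^ m' * w) * t ^ 2 * s := by
      rw [← e3]; ring
    rw [h1, h2, mul_pow, ← pow_mul, mul_comm m p]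
    ring
  have hcb : c * b ^ p - 1 ∈ O := O.sub_mem (O.mul_mem hc (O.pow_mem hb p)) O.one_mem
  set Z := c * Y * (1 + π ^ (p * m + 1) * r) +
    c * (b ^ p + π ^ (p * m) * (w * b ^ (p - 1) * t + t ^ p)) * r with hZ
  have h3 : c * b ^ p - 1 =
      π ^ (p * m) * (H - c * (w * b ^ (p - 1) * t + t ^ p) - π * Z) := by
    rw [hZ]
    rw [hgp] at heq
    linear_combination (-1 : R) * heq
  obtain ⟨γ, hγ, hγe⟩ := L.sat_pow (p * m) _ hcb ⟨_, h3⟩
  have h4 : γ = H - c * (w * b ^ (p - 1) * t + t ^ p) - π * Z :=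
    L.cancel (p * m) (by rw [← hγe, h3])
  have h5 := s44g_aux_inv_pow π c b γ hp.pos hj hγe
  refine ⟨γ, hγ, c * b ^ (p - 1) * t, ?_⟩
  have h6 : H - γ - (c * b ^ (p - 1) * t) ^ p - w * (c * b ^ (p - 1) * t) =
      π * Z + (c - (c * b ^ (p - 1)) ^ p) * t ^ p := by
    rw [h4, mul_pow]; ring
  rw [h6]
  exact dvd_add (dvd_mul_right π Z) (Dvd.dvd.mul_right h5 _)

end step

end Fermat.Agent.S44
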