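/-
S44 project, cell [G1] (abstract half of [G] ETALE; helper16).  Mathlib only.  Prefix `s44g_`.

**Depth induction in the local ring of a closed point of the special fibre.**

`S` a local ring (the local ring of a closed point `𝔫` of the special fibre of a chart), `π ∈ 𝔪_S` a
non-zero-divisor, `O ⊆ S` the subring of constants (a DVR with parameter `π`, PERFECT residue
field, dominated by `S`; the residue field of `S` may be bigger), `p = π ^ (m (p - 1)) * w`.
Branches: ring homs `φ i : S → R i` (`R i` = the valuation ring of the `i`-th vertical valuation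
through `𝔫`), `𝔭 i := φ i ⁻¹ (π R i)`; `⋂ 𝔭 i = π S` (`S / π` reduced), `S / 𝔭 i` is `p`-root closed in
`R i / π` (the branches are normal), and functions on the branches which agree at `𝔫` glue.

* `s44g_Branches.loc`  : the local data `s44g_Loc` on every branch;
* `s44g_step0`         : a unit `u` which is, on every branch, `c g^p (1 + π r)` is `C d^p (1 + π h)`
                         in `S` with ONE constant `C` (helper4's warning W1);
* `s44g_step`          : the depth induction step at depth `0 < j < p m`;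
* `s44g_ind`           : `u = C d^p (1 + π ^ (p m) H)`, `C ∈ Oˣ`, `d ∈ Sˣ`, `H ∈ S`;
* `s44g_top`           : `H ≡ γ_i + t_i^p + w t_i mod π` on every branch (Artin–Schreier form).
-/
import Mathlib
import Fermat.Agent.S44.Etale.Loc

set_option autoImplicit false

namespace Fermat.Agent.S44

open IsLocalRing

universe u v w'

/-- the branch ideal `φ ⁻¹ (π R)`. -/
def s44g_brIdeal {S : Type*} [CommRing S] {R : Type*} [CommRing R] (φ : S →+* R) (π : S) :
    Ideal S :=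
  (Ideal.span {φ π}).comap φ

theorem s44g_mem_brIdeal {S : Type*} [CommRing S] {R : Type*} [CommRing R] (φ : S →+* R) (π : S)
    (s : S) : s ∈ s44g_brIdeal φ π ↔ φ π ∣ φ s := by
  rw [s44g_brIdeal, Ideal.mem_comap, Ideal.mem_span_singleton]

/-- **Branch data** at a closed point of the special fibre. -/
structure s44g_Branches {S : Type u} [CommRing S] [IsLocalRing S] (O : Subring S) (π w : S)
    (p m : ℕ) {ι : Type v} (R : ι → Type w') [∀ i, CommRing (R i)] (φ : ∀ i, S →+* R i) :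
    Prop where
  prime : p.Prime
  m_pos : 0 < m
  reg : π ∈ nonZeroDivisors S
  π_mem : π ∈ O
  π_max : π ∈ maximalIdeal S
  p_eq : (p : S) = π ^ (m * (p - 1)) * w
  /-- `O ∩ 𝔪_S = π O`. -/
  O_sat : ∀ x ∈ O, x ∈ maximalIdeal S → ∃ y ∈ O, x = π * y
  /-- `O` is local, dominated by `S`. -/
  O_unit : ∀ x ∈ O, IsUnit x → ∃ y ∈ O, x * y = 1
  /-- the residue field of `O` is perfect. -/
  O_perf : ∀ c ∈ O, ∃ b ∈ O, π ∣ b ^ p - c
  regR : ∀ i, φ i π ∈ nonZeroDivisors (R i)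
  nonunit : ∀ i, ¬ IsUnit (φ i π)
  /-- `R i / π` is reduced. -/
  rad : ∀ i (x : R i), φ i π ∣ x ^ p → φ i π ∣ x
  /-- `S / π` is reduced and the `𝔭 i` are all its minimal primes: `⋂ 𝔭 i = π S`. -/
  red : ∀ s : S, (∀ i, φ i π ∣ φ i s) → π ∣ s
  /-- the branches are normal: `S / 𝔭 i` is `p`-root closed in `R i / π`. -/
  norm : ∀ i (t : R i) (s : S), φ i π ∣ t ^ p - φ i s → ∃ s' : S, φ i π ∣ t - φ i s'
  /-- functions on the branches with the same value at the closed point glue. -/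
  glue : ∀ s : ι → S, (∀ i j, s i - s j ∈ maximalIdeal S) →
    ∃ t : S, ∀ i, φ i π ∣ φ i (t - s i)

namespace s44g_Branches

variable {S : Type u} [CommRing S] [IsLocalRing S] {O : Subring S} {π w : S} {p m : ℕ}
  {ι : Type v} {R : ι → Type w'} [∀ i, CommRing (R i)] {φ : ∀ i, S →+* R i}

/-- the branch ideals -/
abbrev P (_B : s44g_Branches O π w p m R φ) (i : ι) : Ideal S := s44g_brIdeal (φ i) π

theorem mem_P (B : s44g_Branches O π w p m R φ) (i : ι) (s : S) :
    s ∈ B.P i ↔ φ i π ∣ φ i s :=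
  s44g_mem_brIdeal (φ i) π s

theorem π_mem_P (B : s44g_Branches O π w p m R φ) (i : ι) : π ∈ B.P i :=
  (B.mem_P i π).2 dvd_rfl

theorem P_le (B : s44g_Branches O π w p m R φ) (i : ι) : B.P i ≤ maximalIdeal S := by
  apply le_maximalIdeal
  intro htop
  have h1 : (1 : S) ∈ B.P i := by rw [htop]; trivial
  rw [B.mem_P, map_one] at h1
  exact B.nonunit i (isUnit_of_dvd_one h1)

theorem π_dvd_p (B : s44g_Branches O π w p m R φ) : π ∣ (p : S) := by
  have h2p := B.prime.two_le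
  have hm := B.m_pos
  obtain ⟨e, he⟩ : ∃ e, m * (p - 1) = e + 1 := ⟨m * (p - 1) - 1, by
    have : 0 < m * (p - 1) := Nat.mul_pos hm (by omega)
    omega⟩
  rw [B.p_eq, he, pow_succ]
  exact ⟨π ^ e * w, by ring⟩

theorem p_mem_P (B : s44g_Branches O π w p m R φ) (i : ι) : (p : S) ∈ B.P i :=
  Ideal.mem_of_dvd _ B.π_dvd_p (B.π_mem_P i)

theorem p_mem_max (B : s44g_Branches O π w p m R φ) : (p : S) ∈ maximalIdeal S :=
  Ideal.mem_of_dvd _ B.π_dvd_p B.π_max

theorem nonempty (B : s44g_Branches O π w p m R φ) : Nonempty ι := by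
  by_contra hι
  rw [not_nonempty_iff] at hι
  have h1 : π ∣ (1 : S) := B.red 1 (fun i => isEmptyElim i)
  have h2 : IsUnit π := isUnit_of_dvd_one h1
  exact (mem_maximalIdeal π).1 B.π_max h2

/-- `(x + y)^p ≡ x^p + y^p` modulo any ideal containing `p`. -/
theorem add_pow_mem (B : s44g_Branches O π w p m R φ) (I : Ideal S) (hI : (p : S) ∈ I)
    (x y : S) : (x + y) ^ p - (x ^ p + y ^ p) ∈ I := by
  obtain ⟨s, hs⟩ := s44g_add_pow_prime' B.prime x y
  have : (x + y) ^ p - (x ^ p + y ^ p) = (p : S) * (y * s) := by rw [hs]; ring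
  rw [this]
  exact I.mul_mem_right _ hI

/-- in a prime ideal containing `p`: `x^p - y^p ∈ I → x - y ∈ I`. -/
theorem sub_mem_of_pow (B : s44g_Branches O π w p m R φ) {x y : S}
    (h : x ^ p - y ^ p ∈ maximalIdeal S) : x - y ∈ maximalIdeal S := by
  have h1 := B.add_pow_mem (maximalIdeal S) B.p_mem_max (x - y) y
  rw [sub_add_cancel] at h1
  have h2 : (x - y) ^ p ∈ maximalIdeal S := by
    have : (x - y) ^ p = (x ^ p - y ^ p) - (x ^ p - ((x - y) ^ p + y ^ p)) := by ring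
    rw [this]
    exact Ideal.sub_mem _ h h1
  exact Ideal.IsPrime.mem_of_pow_mem inferInstance p h2

/-- `1 + π x` (`x ∈ O`) is a unit of `O`. -/
theorem O_one_add (B : s44g_Branches O π w p m R φ) {x : S} (hx : x ∈ O) :
    ∃ y ∈ O, (1 + π * x) * y = 1 := by
  apply B.O_unit _ (O.add_mem O.one_mem (O.mul_mem B.π_mem hx))
  have h1 : π * x ∈ maximalIdeal S := Ideal.mul_mem_right _ _ B.π_max
  by_contra h2
  have h3 : 1 + π * x ∈ maximalIdeal S := (mem_maximalIdeal _).2 h2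
  have h4 : (1 : S) ∈ maximalIdeal S := by
    have := Ideal.sub_mem _ h3 h1
    rwa [add_sub_cancel_right] at this
  exact (mem_maximalIdeal _).1 h4 isUnit_one

/-- **the local data on a branch**. -/
theorem loc (B : s44g_Branches O π w p m R φ) (i : ι) :
    s44g_Loc (O.map (φ i)) (φ i π) (φ i w) p m where
  prime := B.prime
  m_pos := B.m_pos
  reg := B.regR i
  π_mem := Subring.mem_map.2 ⟨π, B.π_mem, rfl⟩
  p_eq := by
    have := congrArg (φ i) B.p_eq
    rwa [map_natCast, map_mul, map_pow] at this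
  sat := by
    rintro x hx hdvd
    obtain ⟨x0, hx0, rfl⟩ := Subring.mem_map.1 hx
    have h1 : x0 ∈ maximalIdeal S := B.P_le i ((B.mem_P i x0).2 hdvd)
    obtain ⟨y0, hy0, rfl⟩ := B.O_sat x0 hx0 h1
    exact ⟨φ i y0, Subring.mem_map.2 ⟨y0, hy0, rfl⟩, map_mul _ _ _⟩
  root := by
    rintro g c hc hdvd
    obtain ⟨c0, hc0, rfl⟩ := Subring.mem_map.1 hc
    obtain ⟨b0, hb0, hb0c⟩ := B.O_perf c0 hc0
    refine ⟨φ i b0, Subring.mem_map.2 ⟨b0, hb0, rfl⟩, B.rad i _ ?_⟩
    obtain ⟨s, hs⟩ := s44g_add_pow_prime' B.prime (g - φ i b0) (φ i b0)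
    rw [sub_add_cancel] at hs
    have h1 : (g - φ i b0) ^ p = (g ^ p - φ i c0) - φ i (b0 ^ p - c0) -
        φ i (p : S) * (φ i b0 * s) := by
      rw [map_sub, map_pow, map_natCast, hs]; ring
    rw [h1]
    refine dvd_sub (dvd_sub hdvd ((map_dvd (φ i) hb0c))) (Dvd.dvd.mul_right ?_ _)
    exact map_dvd (φ i) B.π_dvd_p

/-- a unit times an element of `𝔪` lies in `𝔪` only if ... : cancel a unit. -/
theorem mem_max_of_mul_unit (_B : s44g_Branches O π w p m R φ) {a d : S} (hd : IsUnit d)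
    (h : a * d ∈ maximalIdeal S) : a ∈ maximalIdeal S := by
  rcases (Ideal.IsPrime.mem_or_mem (inferInstance : (maximalIdeal S).IsPrime) h) with h1 | h1
  · exact h1
  · exact absurd hd ((mem_maximalIdeal d).1 h1)

/-- a constant in `𝔪_S` lies in every branch ideal. -/
theorem O_mem_P (B : s44g_Branches O π w p m R φ) (i : ι) {x : S} (hx : x ∈ O)
    (hxm : x ∈ maximalIdeal S) : x ∈ B.P i := by
  obtain ⟨y, _, rfl⟩ := B.O_sat x hx hxm
  exact Ideal.mul_mem_right _ _ (B.π_mem_P i)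

/-- `x ≡ y mod 𝔭 i` implies `x^p ≡ y^p mod 𝔭 i`. -/
theorem pow_sub_pow_mem (_B : s44g_Branches O π w p m R φ) (I : Ideal S) {x y : S}
    (h : x - y ∈ I) : x ^ p - y ^ p ∈ I :=
  Ideal.mem_of_dvd _ (sub_dvd_pow_sub_pow x y p) h

/-- **constants glue**: if `h` is congruent to a constant on every branch, it is congruent to a
constant modulo `π`. -/
theorem const_glue (B : s44g_Branches O π w p m R φ) (h : S)
    (H : ∀ i, ∃ γ ∈ O, h - γ ∈ B.P i) : ∃ Γ ∈ O, π ∣ h - Γ := by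
  obtain ⟨i0⟩ := B.nonempty
  choose γ hγ hγP using H
  refine ⟨γ i0, hγ i0, B.red _ fun i => (B.mem_P i _).1 ?_⟩
  have h1 : γ i - γ i0 ∈ maximalIdeal S := by
    have : γ i - γ i0 = (h - γ i0) - (h - γ i) := by ring
    rw [this]
    exact Ideal.sub_mem _ (B.P_le i0 (hγP i0)) (B.P_le i (hγP i))
  have h2 := B.O_mem_P i (O.sub_mem (hγ i) (hγ i0)) h1
  have : h - γ i0 = (h - γ i) + (γ i - γ i0) := by ring
  rw [this]
  exact Ideal.add_mem _ (hγP i) h2

/-- **constants plus `p`-th powers glue**. -/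
theorem pow_glue (B : s44g_Branches O π w p m R φ) (h : S)
    (H : ∀ i, ∃ γ ∈ O, ∃ s : S, h - γ - s ^ p ∈ B.P i) :
    ∃ Γ ∈ O, ∃ t : S, π ∣ h - Γ - t ^ p := by
  obtain ⟨i0⟩ := B.nonempty
  choose γ hγ s hs using H
  -- the correcting constants
  have hδ : ∀ i, ∃ δ ∈ O, s i - δ - s i0 ∈ maximalIdeal S := by
    intro i
    obtain ⟨δ, hδ, hδd⟩ := B.O_perf (γ i0 - γ i) (O.sub_mem (hγ i0) (hγ i))
    refine ⟨δ, hδ, B.sub_mem_of_pow ?_⟩
    have h1 : δ ^ p - (γ i0 - γ i) ∈ maximalIdeal S := Ideal.mem_of_dvd _ hδd B.π_max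
    have h2 := B.add_pow_mem (maximalIdeal S) B.p_mem_max (s i - δ) δ
    rw [sub_add_cancel] at h2
    have h3 := B.P_le i (hs i)
    have h4 := B.P_le i0 (hs i0)
    have : (s i - δ) ^ p - s i0 ^ p = (h - γ i0 - s i0 ^ p) - (h - γ i - s i ^ p)
        - (s i ^ p - ((s i - δ) ^ p + δ ^ p)) - (δ ^ p - (γ i0 - γ i)) := by ring
    rw [this]
    exact Ideal.sub_mem _ (Ideal.sub_mem _ (Ideal.sub_mem _ h4 h3) h2) h1
  choose δ hδO hδm using hδ
  -- corrected data
  have hs' : ∀ i, h - (γ i + δ i ^ p) - (s i - δ i) ^ p ∈ B.P i := by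
    intro i
    have h2 := B.add_pow_mem (B.P i) (B.p_mem_P i) (s i - δ i) (δ i)
    rw [sub_add_cancel] at h2
    have : h - (γ i + δ i ^ p) - (s i - δ i) ^ p = (h - γ i - s i ^ p) +
        (s i ^ p - ((s i - δ i) ^ p + δ i ^ p)) := by ring
    rw [this]
    exact Ideal.add_mem _ (hs i) h2
  obtain ⟨t, ht⟩ := B.glue (fun i => s i - δ i) (fun i j => by
    have : (s i - δ i) - (s j - δ j) = (s i - δ i - s i0) - (s j - δ j - s i0) := by ring
    rw [this]
    exact Ideal.sub_mem _ (hδm i) (hδm j))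
  have ht' : ∀ i, h - (γ i + δ i ^ p) - t ^ p ∈ B.P i := by
    intro i
    have h1 : t ^ p - (s i - δ i) ^ p ∈ B.P i :=
      B.pow_sub_pow_mem _ ((B.mem_P i _).2 (ht i))
    have : h - (γ i + δ i ^ p) - t ^ p = (h - (γ i + δ i ^ p) - (s i - δ i) ^ p) -
        (t ^ p - (s i - δ i) ^ p) := by ring
    rw [this]
    exact Ideal.sub_mem _ (hs' i) h1
  have hO : ∀ i, γ i + δ i ^ p ∈ O := fun i => O.add_mem (hγ i) (O.pow_mem (hδO i) p)
  refine ⟨γ i0 + δ i0 ^ p, hO i0, t, B.red _ fun i => (B.mem_P i _).1 ?_⟩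
  have h1 : (γ i + δ i ^ p) - (γ i0 + δ i0 ^ p) ∈ maximalIdeal S := by
    have : (γ i + δ i ^ p) - (γ i0 + δ i0 ^ p) = (h - (γ i0 + δ i0 ^ p) - t ^ p) -
        (h - (γ i + δ i ^ p) - t ^ p) := by ring
    rw [this]
    exact Ideal.sub_mem _ (B.P_le i0 (ht' i0)) (B.P_le i (ht' i))
  have h2 := B.O_mem_P i (O.sub_mem (hO i) (hO i0)) h1
  have : h - (γ i0 + δ i0 ^ p) - t ^ p = (h - (γ i + δ i ^ p) - t ^ p) +
      ((γ i + δ i ^ p) - (γ i0 + δ i0 ^ p)) := by ring
  rw [this]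
  exact Ideal.add_mem _ (ht' i) h2

/-- a unit minus an element of `𝔪` is a unit. -/
theorem isUnit_of_sub_mem (_B : s44g_Branches O π w p m R φ) {x y : S} (hx : IsUnit x)
    (h : x - y ∈ maximalIdeal S) : IsUnit y := by
  by_contra hy
  have hy' : y ∈ maximalIdeal S := (mem_maximalIdeal y).2 hy
  have : x ∈ maximalIdeal S := by
    have := Ideal.add_mem _ h hy'
    rwa [sub_add_cancel] at this
  exact (mem_maximalIdeal x).1 this hx

/-- **units glue (depth `0`)**: if the unit `u` is a constant times a `p`-th power on every branch,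
it is ONE constant times a `p`-th power modulo `π`. -/
theorem unit_glue (B : s44g_Branches O π w p m R φ) {u : S} (hu : IsUnit u)
    (H : ∀ i, ∃ c ∈ O, ∃ c' ∈ O, c * c' = 1 ∧ ∃ s : S, u - c * s ^ p ∈ B.P i) :
    ∃ C ∈ O, ∃ C' ∈ O, C * C' = 1 ∧ ∃ d : S, IsUnit d ∧ π ∣ u - C * d ^ p := by
  have hp0 : p ≠ 0 := B.prime.ne_zero
  obtain ⟨i0⟩ := B.nonempty
  choose c hc c' hc' hcc s hs using H
  have hcu : ∀ i, IsUnit (c i) := fun i => isUnit_iff_exists_inv.2 ⟨c' i, hcc i⟩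
  have hsu : ∀ i, IsUnit (s i) := by
    intro i
    have h1 : IsUnit (c i * s i ^ p) := B.isUnit_of_sub_mem hu (B.P_le i (hs i))
    exact (isUnit_pow_iff hp0).1 (isUnit_of_mul_isUnit_right h1)
  -- the correcting constants
  have hδ : ∀ i, ∃ δ ∈ O, ∃ δ' ∈ O, δ * δ' = 1 ∧ s i * δ' - s i0 ∈ maximalIdeal S := by
    intro i
    obtain ⟨δ, hδ, hδd⟩ := B.O_perf (c' i * c i0) (O.mul_mem (hc' i) (hc i0))
    have h1 : δ ^ p - c' i * c i0 ∈ maximalIdeal S := Ideal.mem_of_dvd _ hδd B.π_max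
    have h2 : s i ^ p - (δ * s i0) ^ p ∈ maximalIdeal S := by
      have h3 := B.P_le i (hs i)
      have h4 := B.P_le i0 (hs i0)
      have : s i ^ p - (δ * s i0) ^ p = c' i * ((u - c i0 * s i0 ^ p) - (u - c i * s i ^ p))
          - (δ ^ p - c' i * c i0) * s i0 ^ p - (c i * c' i - 1) * s i ^ p := by ring
      rw [this, hcc i, sub_self, zero_mul, sub_zero]
      exact Ideal.sub_mem _ (Ideal.mul_mem_left _ _ (Ideal.sub_mem _ h4 h3))
        (Ideal.mul_mem_right _ _ h1)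
    have h5 : s i - δ * s i0 ∈ maximalIdeal S := B.sub_mem_of_pow h2
    have h6 : IsUnit (δ * s i0) := B.isUnit_of_sub_mem (hsu i) h5
    have h7 : IsUnit δ := isUnit_of_mul_isUnit_left h6
    obtain ⟨δ', hδ', hδδ⟩ := B.O_unit δ hδ h7
    refine ⟨δ, hδ, δ', hδ', hδδ, ?_⟩
    have : s i * δ' - s i0 = δ' * (s i - δ * s i0) + (δ * δ' - 1) * s i0 := by ring
    rw [this, hδδ, sub_self, zero_mul, add_zero]
    exact Ideal.mul_mem_left _ _ h5
  choose δ hδO δ' hδ'O hδδ hδm using hδ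
  -- corrected data: `c i δ i ^ p`, `s i δ' i`
  have hs' : ∀ i, u - (c i * δ i ^ p) * (s i * δ' i) ^ p ∈ B.P i := by
    intro i
    have : (c i * δ i ^ p) * (s i * δ' i) ^ p = c i * s i ^ p * (δ i * δ' i) ^ p := by ring
    rw [this, hδδ i, one_pow, mul_one]
    exact hs i
  obtain ⟨d, hd⟩ := B.glue (fun i => s i * δ' i) (fun i j => by
    have : s i * δ' i - s j * δ' j = (s i * δ' i - s i0) - (s j * δ' j - s i0) := by ring
    rw [this]
    exact Ideal.sub_mem _ (hδm i) (hδm j))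
  have hdu : IsUnit d := by
    have h1 : IsUnit (s i0 * δ' i0) :=
      (hsu i0).mul (isUnit_iff_exists_inv'.2 ⟨δ i0, hδδ i0⟩)
    have h2 : s i0 * δ' i0 - d ∈ maximalIdeal S := by
      have := B.P_le i0 ((B.mem_P i0 _).2 (hd i0))
      have h3 : s i0 * δ' i0 - d = - (d - s i0 * δ' i0) := by ring
      rw [h3]
      exact Ideal.neg_mem_iff _ |>.2 this
    exact B.isUnit_of_sub_mem h1 h2
  have hd' : ∀ i, u - (c i * δ i ^ p) * d ^ p ∈ B.P i := by
    intro i
    have h1 : d ^ p - (s i * δ' i) ^ p ∈ B.P i :=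
      B.pow_sub_pow_mem _ ((B.mem_P i _).2 (hd i))
    have : u - (c i * δ i ^ p) * d ^ p = (u - (c i * δ i ^ p) * (s i * δ' i) ^ p) -
        (c i * δ i ^ p) * (d ^ p - (s i * δ' i) ^ p) := by ring
    rw [this]
    exact Ideal.sub_mem _ (hs' i) (Ideal.mul_mem_left _ _ h1)
  have hO : ∀ i, c i * δ i ^ p ∈ O := fun i => O.mul_mem (hc i) (O.pow_mem (hδO i) p)
  refine ⟨c i0 * δ i0 ^ p, hO i0, c' i0 * δ' i0 ^ p,
    O.mul_mem (hc' i0) (O.pow_mem (hδ'O i0) p), ?_, d, hdu,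
    B.red _ fun i => (B.mem_P i _).1 ?_⟩
  · have : c i0 * δ i0 ^ p * (c' i0 * δ' i0 ^ p) = (c i0 * c' i0) * (δ i0 * δ' i0) ^ p := by ring
    rw [this, hcc i0, hδδ i0, one_pow, mul_one]
  · have h1 : (c i * δ i ^ p) - (c i0 * δ i0 ^ p) ∈ maximalIdeal S := by
      apply B.mem_max_of_mul_unit (hdu.pow p)
      have : ((c i * δ i ^ p) - (c i0 * δ i0 ^ p)) * d ^ p = (u - (c i0 * δ i0 ^ p) * d ^ p) -
          (u - (c i * δ i ^ p) * d ^ p) := by ring
      rw [this]
      exact Ideal.sub_mem _ (B.P_le i0 (hd' i0)) (B.P_le i (hd' i))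
    have h2 := B.O_mem_P i (O.sub_mem (hO i) (hO i0)) h1
    have : u - c i0 * δ i0 ^ p * d ^ p = (u - (c i * δ i ^ p) * d ^ p) +
        ((c i * δ i ^ p) - (c i0 * δ i0 ^ p)) * d ^ p := by ring
    rw [this]
    exact Ideal.add_mem _ (hd' i) (Ideal.mul_mem_right _ _ h2)

end s44g_Branches

end Fermat.Agent.S44
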